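/-
T14 / SI-AN (analytic hedge for the second inequality), piece P7: character sums of `-log ‖1 - ψ g x‖`.

For a finite abelian group `G`, `g : G` and `0 ≤ x < 1`:
`∑_ψ -log (1 - ψ g x) = |G| ∑_{k ≥ 1, k • g = 0} x^k / k`, in particular
`0 ≤ ∑_ψ -log ‖1 - ψ g x‖`, and `|G| x ≤ ∑_ψ -log ‖1 - ψ 0 x‖`.
-/
import Mathlib

set_option autoImplicit false

open Finset

namespace Fermat.Agent.S14.SIan

variable {G : Type*} [AddCommGroup G] [Fintype G]

/-- the `k`-th Taylor term of the character sum. -/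
noncomputable def charTerm (g : G) (x : ℝ) (k : ℕ) : ℝ :=
  open Classical in (if k • g = 0 then (Fintype.card G : ℝ) else 0) * (x ^ k / k)

theorem charTerm_nonneg (g : G) {x : ℝ} (hx0 : 0 ≤ x) (k : ℕ) : 0 ≤ charTerm g x k := by
  unfold charTerm
  split_ifs
  · positivity
  · simp

theorem charTerm_zero_right (x : ℝ) (k : ℕ) :
    charTerm (0 : G) x k = (Fintype.card G : ℝ) * (x ^ k / k) := by
  unfold charTerm
  simp

theorem sum_char_pow (g : G) (x : ℝ) (k : ℕ) :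
    ∑ ψ : AddChar G ℂ, (ψ g * (x : ℂ)) ^ k / (k : ℂ) = ((charTerm g x k : ℝ) : ℂ) := by
  classical
  have h1 : ∀ ψ : AddChar G ℂ, (ψ g * (x : ℂ)) ^ k / (k : ℂ) = ψ (k • g) * ((x : ℂ) ^ k / k) := by
    intro ψ
    rw [AddChar.map_nsmul_eq_pow, mul_pow, mul_div_assoc]
  simp_rw [h1]
  rw [← Finset.sum_mul, AddChar.sum_apply_eq_ite]
  unfold charTerm
  push_cast
  split_ifs <;> simp

/-- The complex Taylor expansion of the character sum. -/
theorem hasSum_charSum_complex (g : G) {x : ℝ} (hx0 : 0 ≤ x) (hx1 : x < 1) :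
    HasSum (fun k : ℕ => ((charTerm g x k : ℝ) : ℂ))
      (∑ ψ : AddChar G ℂ, -Complex.log (1 - ψ g * (x : ℂ))) := by
  have h : ∀ ψ ∈ (Finset.univ : Finset (AddChar G ℂ)),
      HasSum (fun k : ℕ => (ψ g * (x : ℂ)) ^ k / (k : ℂ)) (-Complex.log (1 - ψ g * (x : ℂ))) := by
    intro ψ _
    apply Complex.hasSum_taylorSeries_neg_log
    rw [norm_mul, AddChar.norm_apply, one_mul, Complex.norm_real, Real.norm_eq_abs,
      abs_of_nonneg hx0]
    exact hx1
  have := hasSum_sum h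
  simpa only [sum_char_pow] using this

/-- The real Taylor expansion of `∑_ψ -log ‖1 - ψ g x‖`. -/
theorem hasSum_charSum (g : G) {x : ℝ} (hx0 : 0 ≤ x) (hx1 : x < 1) :
    HasSum (charTerm g x) (∑ ψ : AddChar G ℂ, -Real.log ‖1 - ψ g * (x : ℂ)‖) := by
  have h := Complex.reCLM.hasSum (hasSum_charSum_complex g hx0 hx1)
  simp only [Complex.reCLM_apply, Complex.ofReal_re, Complex.re_sum, Complex.neg_re,
    Complex.log_re] at h
  exact h

/-- **P7 (a)**: the character sum is nonnegative. -/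
theorem charSum_nonneg (g : G) {x : ℝ} (hx0 : 0 ≤ x) (hx1 : x < 1) :
    0 ≤ ∑ ψ : AddChar G ℂ, -Real.log ‖1 - ψ g * (x : ℂ)‖ :=
  (hasSum_charSum g hx0 hx1).nonneg (charTerm_nonneg g hx0)

/-- **P7 (b)**: at `g = 0` the character sum is at least `|G| x`. -/
theorem card_mul_le_charSum_zero {x : ℝ} (hx0 : 0 ≤ x) (hx1 : x < 1) :
    (Fintype.card G : ℝ) * x ≤ ∑ ψ : AddChar G ℂ, -Real.log ‖1 - ψ (0 : G) * (x : ℂ)‖ := by
  have h := le_hasSum (hasSum_charSum (0 : G) hx0 hx1) 1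
    (fun j _ => charTerm_nonneg (0 : G) hx0 j)
  rw [charTerm_zero_right] at h
  simpa using h

/-- variant of (b): if `k₀ • g = 0` with `k₀ ≥ 1` the character sum is at least `|G| x^k₀ / k₀`. -/
theorem card_mul_pow_le_charSum (g : G) {x : ℝ} (hx0 : 0 ≤ x) (hx1 : x < 1) {k₀ : ℕ}
    (hk : k₀ • g = 0) :
    (Fintype.card G : ℝ) * (x ^ k₀ / k₀) ≤ ∑ ψ : AddChar G ℂ, -Real.log ‖1 - ψ g * (x : ℂ)‖ := by
  have h := le_hasSum (hasSum_charSum g hx0 hx1) k₀
    (fun j _ => charTerm_nonneg g hx0 j)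
  unfold charTerm at h
  rw [if_pos hk] at h
  exact h

end Fermat.Agent.S14.SIan
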