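import Mathlib

/-!
# T14 / SI-AN P6 (core): Euler product in exp-log form for a commutative monoid with a family
of "primes", by the sieve argument.  Mathlib only.
-/

set_option autoImplicit false

open Filter Topology Complex

namespace Fermat.Agent.S14.SIan.EulerCore

variable {M P : Type*} [CommMonoid M] (q : P → M)

/-- the sieved function: `f m` if no `q 𝔭`, `𝔭 ∈ s`, divides `m`, and `0` otherwise -/
noncomputable def sieve (f : M → ℂ) (s : Finset P) (m : M) : ℂ :=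
  open Classical in if ∀ 𝔭 ∈ s, ¬ q 𝔭 ∣ m then f m else 0

variable {q}

theorem norm_sieve_le (f : M → ℂ) (s : Finset P) (m : M) : ‖sieve q f s m‖ ≤ ‖f m‖ := by
  unfold sieve
  split_ifs <;> simp

theorem summable_sieve {f : M → ℂ} (hsum : Summable fun m => ‖f m‖) (s : Finset P) :
    Summable (sieve q f s) :=
  Summable.of_norm_bounded hsum (norm_sieve_le f s)

theorem sieve_empty (f : M → ℂ) : sieve q f ∅ = f := by
  funext m
  simp [sieve]

/-- one sieving step -/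
theorem tsum_sieve_insert [DecidableEq P] (hinj : ∀ 𝔭, Function.Injective (fun m => q 𝔭 * m))
    (hdvd : ∀ 𝔭 𝔮, 𝔭 ≠ 𝔮 → ∀ m, q 𝔮 ∣ q 𝔭 * m ↔ q 𝔮 ∣ m)
    (f : M →* ℂ) (hsum : Summable fun m => ‖f m‖) (s : Finset P) (𝔭 : P) (h𝔭 : 𝔭 ∉ s) :
    ∑' m, sieve q f (insert 𝔭 s) m = (1 - f (q 𝔭)) * ∑' m, sieve q f s m := by
  classical
  -- split according to divisibility by `q 𝔭`
  have hsplit : ∀ m, sieve q f s m =
      sieve q f (insert 𝔭 s) m + (if q 𝔭 ∣ m then sieve q f s m else 0) := by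
    intro m
    unfold sieve
    by_cases h1 : q 𝔭 ∣ m
    · simp [h1]
    · simp [h1]
  have hs2 : Summable fun m => (if q 𝔭 ∣ m then sieve q f s m else 0) := by
    refine Summable.of_norm_bounded hsum fun m => ?_
    split_ifs
    · exact norm_sieve_le f s m
    · simp
  have h1 : ∑' m, sieve q f s m = ∑' m, sieve q f (insert 𝔭 s) m +
      ∑' m, (if q 𝔭 ∣ m then sieve q f s m else 0) := by
    rw [← (summable_sieve hsum _).tsum_add hs2]
    exact tsum_congr hsplit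
  -- reindex the second sum
  have h2 : ∑' m, (if q 𝔭 ∣ m then sieve q f s m else 0) =
      ∑' m, (fun m => if q 𝔭 ∣ m then sieve q f s m else 0) (q 𝔭 * m) := by
    refine ((hinj 𝔭).tsum_eq ?_).symm
    intro m hm
    rw [Function.mem_support] at hm
    by_cases hd : q 𝔭 ∣ m
    · obtain ⟨c, rfl⟩ := hd
      exact ⟨c, rfl⟩
    · simp [hd] at hm
  have h3 : ∀ m, (fun m => if q 𝔭 ∣ m then sieve q f s m else 0) (q 𝔭 * m) =
      f (q 𝔭) * sieve q f s m := by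
    intro m
    have hcop : (∀ 𝔮 ∈ s, ¬ q 𝔮 ∣ q 𝔭 * m) ↔ ∀ 𝔮 ∈ s, ¬ q 𝔮 ∣ m := by
      refine forall₂_congr fun 𝔮 h𝔮 => ?_
      have hne : 𝔭 ≠ 𝔮 := fun h => h𝔭 (h ▸ h𝔮)
      rw [hdvd 𝔭 𝔮 hne m]
    simp only [dvd_mul_right, if_true]
    unfold sieve
    by_cases h : ∀ 𝔮 ∈ s, ¬ q 𝔮 ∣ m
    · rw [if_pos h, if_pos (hcop.mpr h), map_mul]
    · rw [if_neg h, if_neg (fun h' => h (hcop.mp h')), mul_zero]
  rw [h2, tsum_congr h3, tsum_mul_left] at h1
  rw [sub_mul, one_mul]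
  linear_combination -h1

theorem prod_mul_tsum_eq (hinj : ∀ 𝔭, Function.Injective (fun m => q 𝔭 * m))
    (hdvd : ∀ 𝔭 𝔮, 𝔭 ≠ 𝔮 → ∀ m, q 𝔮 ∣ q 𝔭 * m ↔ q 𝔮 ∣ m)
    (f : M →* ℂ) (hsum : Summable fun m => ‖f m‖) (s : Finset P) :
    (∏ 𝔭 ∈ s, (1 - f (q 𝔭))) * ∑' m, f m = ∑' m, sieve q f s m := by
  classical
  induction s using Finset.induction with
  | empty => simp [sieve_empty]
  | insert 𝔭 s h𝔭 ih =>
    rw [Finset.prod_insert h𝔭, mul_assoc, ih, tsum_sieve_insert hinj hdvd f hsum s 𝔭 h𝔭]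

/-- the sieved sums tend to `f 1 = 1` -/
theorem tendsto_tsum_sieve (hex : ∀ m : M, m ≠ 1 → ∃ 𝔭, q 𝔭 ∣ m) (hone : ∀ 𝔭, ¬ q 𝔭 ∣ 1)
    (f : M →* ℂ) (hsum : Summable fun m => ‖f m‖) :
    Tendsto (fun s : Finset P => ∑' m, sieve q f s m) atTop (𝓝 1) := by
  classical
  have hlim : ∑' m : M, (if m = 1 then (1 : ℂ) else 0) = 1 := tsum_ite_eq 1 _
  rw [← hlim]
  refine tendsto_tsum_of_dominated_convergence (bound := fun m => ‖f m‖) hsum (fun m => ?_)
    (Eventually.of_forall fun s m => norm_sieve_le f s m)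
  by_cases hm : m = 1
  · subst hm
    have : ∀ s : Finset P, sieve q f s 1 = 1 := by
      intro s
      unfold sieve
      rw [if_pos (fun 𝔭 _ => hone 𝔭), map_one]
    simp [this]
  · obtain ⟨𝔭, h𝔭⟩ := hex m hm
    rw [if_neg hm]
    refine tendsto_const_nhds.congr' ?_
    filter_upwards [eventually_ge_atTop ({𝔭} : Finset P)] with s hs
    unfold sieve
    rw [if_neg]
    exact fun h => h 𝔭 (hs (Finset.mem_singleton_self 𝔭)) h𝔭


/-- the powers of `q 𝔭` are pairwise distinct -/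
theorem pow_injective (hinj : ∀ 𝔭, Function.Injective (fun m => q 𝔭 * m))
    (hone : ∀ 𝔭, ¬ q 𝔭 ∣ 1) (𝔭 : P) : Function.Injective (fun k : ℕ => q 𝔭 ^ k) := by
  have key : ∀ k l : ℕ, k ≤ l → q 𝔭 ^ k = q 𝔭 ^ l → k = l := by
    intro k
    induction k with
    | zero =>
      intro l _ h
      by_contra hl
      obtain ⟨l', rfl⟩ := Nat.exists_eq_succ_of_ne_zero (Ne.symm hl)
      rw [pow_zero, pow_succ'] at h
      exact hone 𝔭 ⟨_, h⟩
    | succ k ih =>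
      intro l hl h
      obtain ⟨l', rfl⟩ := Nat.exists_eq_succ_of_ne_zero (by omega : l ≠ 0)
      rw [pow_succ', pow_succ'] at h
      rw [ih l' (by omega) (hinj 𝔭 h)]
  intro k l h
  rcases le_total k l with hkl | hkl
  · exact key k l hkl h
  · exact (key l k hkl h.symm).symm

theorem norm_lt_one (hinj : ∀ 𝔭, Function.Injective (fun m => q 𝔭 * m))
    (hone : ∀ 𝔭, ¬ q 𝔭 ∣ 1) (f : M →* ℂ) (hsum : Summable fun m => ‖f m‖) (𝔭 : P) :
    ‖f (q 𝔭)‖ < 1 := by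
  have h1 : Summable fun k : ℕ => ‖f (q 𝔭 ^ k)‖ :=
    hsum.comp_injective (pow_injective hinj hone 𝔭)
  have h2 : Summable fun k : ℕ => ‖f (q 𝔭)‖ ^ k := by
    refine h1.congr fun k => ?_
    rw [map_pow, norm_pow]
  have := summable_geometric_iff_norm_lt_one.mp h2
  simpa using this

/-- **Euler product, abstract form.**  `M` a commutative monoid, `q : P → M` a family of
"primes". -/
theorem euler_core (hq : Function.Injective q)
    (hinj : ∀ 𝔭, Function.Injective (fun m => q 𝔭 * m))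
    (hdvd : ∀ 𝔭 𝔮, 𝔭 ≠ 𝔮 → ∀ m, q 𝔮 ∣ q 𝔭 * m ↔ q 𝔮 ∣ m)
    (hex : ∀ m : M, m ≠ 1 → ∃ 𝔭, q 𝔭 ∣ m) (hone : ∀ 𝔭, ¬ q 𝔭 ∣ 1)
    (f : M →* ℂ) (hsum : Summable fun m => ‖f m‖) :
    Summable (fun 𝔭 => -Complex.log (1 - f (q 𝔭))) ∧
      Complex.exp (∑' 𝔭, -Complex.log (1 - f (q 𝔭))) = ∑' m, f m := by
  have hlt := norm_lt_one hinj hone f hsum
  have hne : ∀ 𝔭, 1 - f (q 𝔭) ≠ 0 := by
    intro 𝔭 h
    have h1 : f (q 𝔭) = 1 := (sub_eq_zero.mp h).symm
    have := hlt 𝔭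
    rw [h1, norm_one] at this
    exact lt_irrefl _ this
  have hsq : Summable fun 𝔭 => f (q 𝔭) := (hsum.of_norm).comp_injective hq
  have hlog : Summable fun 𝔭 => Complex.log (1 - f (q 𝔭)) := hsq.clog_one_sub
  refine ⟨hlog.neg, ?_⟩
  -- the partial products converge
  have hprod : Tendsto (fun s : Finset P => ∏ 𝔭 ∈ s, (1 - f (q 𝔭))) atTop
      (𝓝 (Complex.exp (∑' 𝔭, Complex.log (1 - f (q 𝔭))))) := by
    have h := hlog.hasSum.cexp
    have h' : (Complex.exp ∘ fun 𝔭 => Complex.log (1 - f (q 𝔭))) = fun 𝔭 => 1 - f (q 𝔭) := by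
      funext 𝔭
      simp [Complex.exp_log (hne 𝔭)]
    rw [h'] at h
    exact h
  have h1 : Tendsto (fun s : Finset P => (∏ 𝔭 ∈ s, (1 - f (q 𝔭))) * ∑' m, f m) atTop
      (𝓝 (Complex.exp (∑' 𝔭, Complex.log (1 - f (q 𝔭))) * ∑' m, f m)) :=
    hprod.mul_const _
  have h2 : Tendsto (fun s : Finset P => (∏ 𝔭 ∈ s, (1 - f (q 𝔭))) * ∑' m, f m) atTop (𝓝 1) := by
    refine (tendsto_tsum_sieve hex hone f hsum).congr fun s => ?_
    rw [prod_mul_tsum_eq hinj hdvd f hsum s]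
  have h3 := tendsto_nhds_unique h1 h2
  rw [tsum_neg, Complex.exp_neg]
  exact (eq_inv_of_mul_eq_one_right h3).symm ▸ rfl

end Fermat.Agent.S14.SIan.EulerCore
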