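/-
T14 / SI-AN (analytic hedge for `index_normClasses_le`), package P6: Euler product (exp-log form)
for a completely multiplicative function on the nonzero ideals of a number field.  Mathlib only.

Math (mimic `Mathlib/NumberTheory/EulerProduct/Basic.lean` + `ExpLog.lean`).
`f : (Ideal (𝓞 K))⁰ →* ℂ`, `Summable ‖f‖`.  Then `‖f 𝔭‖ < 1` for every prime (the powers `𝔭^k` are
distinct and `‖f (𝔭^k)‖ = ‖f 𝔭‖^k → 0`).  For a finite set `T` of primes let `S_T` be the set of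
nonzero ideals all of whose prime factors lie in `T`.  Induction on `T`
(`S_{insert 𝔭 T} ≃ ℕ × S_T`, `(k, I) ↦ 𝔭^k * I`, unique factorisation):
`HasSum (f restricted to S_T) (∏_{𝔭 ∈ T} (1 - f 𝔭)⁻¹)`.  As `T` grows, `∑_{S_T} f → ∑' f`
(dominated by the summable `‖f‖`; every finite set of ideals is in `S_T` for `T` large).  Finally
`∑' 𝔭, ‖-log (1 - f 𝔭)‖ ≤ ∑' 𝔭, (3/2) ‖f 𝔭‖` (`Complex.norm_log_one_add_le` or similar) gives the
summability of the logs and `exp (∑' -log (1 - f 𝔭)) = ∏' (1 - f 𝔭)⁻¹` (`Complex.cexp_tsum_eq_tprod`).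
-/
import Mathlib
import Fermat.Agent.S14.SIan.EulerCore

set_option autoImplicit false

open NumberField nonZeroDivisors IsDedekindDomain

namespace Fermat.Agent.S14.SIan

variable (K : Type*) [Field K] [NumberField K]

/-- A prime `𝔭` (height one spectrum) as an element of the monoid of nonzero ideals. -/
noncomputable def primeIdeal0 (𝔭 : HeightOneSpectrum (𝓞 K)) : (Ideal (𝓞 K))⁰ :=
  ⟨𝔭.asIdeal, mem_nonZeroDivisors_of_ne_zero 𝔭.ne_bot⟩

namespace EulerIdealAux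

variable {R : Type*} [CommRing R] [IsDedekindDomain R]

/-- divisibility in the monoid of nonzero ideals is divisibility of ideals -/
theorem dvd_iff (a b : (Ideal R)⁰) : a ∣ b ↔ (a : Ideal R) ∣ (b : Ideal R) := by
  constructor
  · rintro ⟨c, rfl⟩
    exact ⟨c, rfl⟩
  · rintro ⟨c, hc⟩
    have hb : (b : Ideal R) ≠ 0 := nonZeroDivisors.ne_zero b.2
    have hc0 : c ≠ 0 := by
      rintro rfl
      rw [mul_zero] at hc
      exact hb hc
    exact ⟨⟨c, mem_nonZeroDivisors_of_ne_zero hc0⟩, Subtype.ext hc⟩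

/-- a height one prime as a nonzero ideal -/
noncomputable def pr (𝔭 : HeightOneSpectrum R) : (Ideal R)⁰ :=
  ⟨𝔭.asIdeal, mem_nonZeroDivisors_of_ne_zero 𝔭.ne_bot⟩

theorem pr_injective : Function.Injective (pr : HeightOneSpectrum R → (Ideal R)⁰) := by
  intro 𝔭 𝔮 h
  exact HeightOneSpectrum.ext (congrArg Subtype.val h)

theorem mul_left_injective (𝔭 : HeightOneSpectrum R) :
    Function.Injective (fun m : (Ideal R)⁰ => pr 𝔭 * m) := by
  intro a b h
  have h' : 𝔭.asIdeal * (a : Ideal R) = 𝔭.asIdeal * (b : Ideal R) := congrArg Subtype.val h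
  exact Subtype.ext (mul_left_cancel₀ 𝔭.ne_bot h')

theorem dvd_mul_iff (𝔭 𝔮 : HeightOneSpectrum R) (h : 𝔭 ≠ 𝔮) (m : (Ideal R)⁰) :
    pr 𝔮 ∣ pr 𝔭 * m ↔ pr 𝔮 ∣ m := by
  rw [dvd_iff, dvd_iff]
  show 𝔮.asIdeal ∣ 𝔭.asIdeal * (m : Ideal R) ↔ 𝔮.asIdeal ∣ (m : Ideal R)
  constructor
  · intro hd
    rcases 𝔮.prime.dvd_or_dvd hd with h1 | h1
    · exfalso
      rw [Ideal.dvd_iff_le] at h1
      have hmax : 𝔭.asIdeal.IsMaximal := 𝔭.isMaximal
      have := hmax.eq_of_le 𝔮.isPrime.ne_top h1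
      exact h (HeightOneSpectrum.ext this)
    · exact h1
  · intro hd
    exact Dvd.dvd.mul_left hd _

theorem exists_dvd (m : (Ideal R)⁰) (hm : m ≠ 1) : ∃ 𝔭 : HeightOneSpectrum R, pr 𝔭 ∣ m := by
  have hm' : (m : Ideal R) ≠ ⊤ := by
    intro h
    apply hm
    exact Subtype.ext (by rw [h]; simp)
  obtain ⟨M, hM, hle⟩ := Ideal.exists_le_maximal _ hm'
  have hm0 : (m : Ideal R) ≠ ⊥ := nonZeroDivisors.ne_zero m.2
  have hM0 : M ≠ ⊥ := by
    rintro rfl
    exact hm0 (le_bot_iff.mp hle)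
  refine ⟨⟨M, hM.isPrime, hM0⟩, ?_⟩
  rw [dvd_iff]
  exact Ideal.dvd_iff_le.mpr hle

theorem not_dvd_one (𝔭 : HeightOneSpectrum R) : ¬ pr 𝔭 ∣ (1 : (Ideal R)⁰) := by
  rw [dvd_iff]
  intro h
  have h1 : ((1 : (Ideal R)⁰) : Ideal R) = ⊤ := by simp
  rw [h1, Ideal.dvd_iff_le] at h
  exact 𝔭.isPrime.ne_top (top_le_iff.mp h)

/-- **Euler product (exp-log form) over the nonzero ideals of a Dedekind domain.** -/
theorem euler_exp_log_dedekind (f : (Ideal R)⁰ →* ℂ) (hf : Summable fun I => ‖f I‖) :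
    Summable (fun 𝔭 : HeightOneSpectrum R => -Complex.log (1 - f (pr 𝔭))) ∧
    Complex.exp (∑' 𝔭 : HeightOneSpectrum R, -Complex.log (1 - f (pr 𝔭))) = ∑' I, f I :=
  EulerCore.euler_core pr_injective mul_left_injective dvd_mul_iff exists_dvd not_dvd_one f hf

end EulerIdealAux

theorem euler_exp_log (f : (Ideal (𝓞 K))⁰ →* ℂ) (hf : Summable fun I => ‖f I‖) :
    Summable (fun 𝔭 : HeightOneSpectrum (𝓞 K) => -Complex.log (1 - f (primeIdeal0 K 𝔭))) ∧
    Complex.exp (∑' 𝔭 : HeightOneSpectrum (𝓞 K), -Complex.log (1 - f (primeIdeal0 K 𝔭))) =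
      ∑' I, f I :=
  EulerIdealAux.euler_exp_log_dedekind f hf

/-- Consequence used by the assembly: the norm of the sum is the exponential of the sum of
`-log ‖1 - f 𝔭‖` (real parts). -/
theorem norm_tsum_eq_exp (f : (Ideal (𝓞 K))⁰ →* ℂ) (hf : Summable fun I => ‖f I‖) :
    Summable (fun 𝔭 : HeightOneSpectrum (𝓞 K) => -Real.log ‖1 - f (primeIdeal0 K 𝔭)‖) ∧
    ‖∑' I, f I‖ =
      Real.exp (∑' 𝔭 : HeightOneSpectrum (𝓞 K), -Real.log ‖1 - f (primeIdeal0 K 𝔭)‖) := by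
  obtain ⟨hs, he⟩ := euler_exp_log K f hf
  have hre : ∀ 𝔭 : HeightOneSpectrum (𝓞 K),
      (-Complex.log (1 - f (primeIdeal0 K 𝔭))).re = -Real.log ‖1 - f (primeIdeal0 K 𝔭)‖ := by
    intro 𝔭
    rw [Complex.neg_re, Complex.log_re]
  have hs' : Summable (fun 𝔭 : HeightOneSpectrum (𝓞 K) =>
      -Real.log ‖1 - f (primeIdeal0 K 𝔭)‖) := by
    have := (Complex.hasSum_re hs.hasSum).summable
    exact this.congr hre
  refine ⟨hs', ?_⟩
  rw [← he, Complex.norm_exp, Complex.re_tsum hs]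
  congr 1
  exact tsum_congr hre

end Fermat.Agent.S14.SIan
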