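import Mathlib

/-!
# T14 / SI-AN P4 : discrete Abel summation bound

If `a n ≥ 0` and the summatory function of `a` is `κ n + O(n^(1-δ))` (`δ > 0`), then the Dirichlet
series `∑ a n n^(-s)` converges for real `s > 1` and

  `|∑ a n n^(-s) - κ ∑ n^(-s)| ≤ B`   uniformly for `s ∈ (1, 2]`,

with the explicit constant `B = C + 2 C ζ(1+δ)`.

Main statements (namespace `Fermat.Agent.S14.SIan`):
* `sum_Icc_by_parts` : summation by parts.
* `rpow_neg_sub_nonneg`, `rpow_neg_sub_le` : `0 ≤ n^(-s) - (n+1)^(-s) ≤ s n^(-s-1)`.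
* `abs_sum_Icc_le` : the uniform bound for the partial sums.
* `abel_bound_Icc` : hypothesis on `∑ k ∈ Icc 1 n, a k` for `n ≥ 1`; series indexed by `n : ℕ`
  (the term `n = 0` vanishes since `0^(-s) = 0`).
* `abel_bound_range` : hypothesis on `∑ k ∈ range (n+1), a k` for all `n` (`δ ≤ 1`).
* `abel_bound` : the statement of the SI-AN skeleton (shifted indexing `a (n+1) (n+1)^(-s)`).
-/

set_option autoImplicit false

open Finset Filter Topology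

namespace Fermat.Agent.S14.SIan

/-- Summation by parts, in the form used for Dirichlet series: with `S n = ∑_{1 ≤ k ≤ n} b k`,
`∑_{1 ≤ n ≤ M} b n f n = S M f (M+1) + ∑_{1 ≤ n ≤ M} S n (f n - f (n+1))`. -/
lemma sum_Icc_by_parts (b f : ℕ → ℝ) (M : ℕ) :
    ∑ n ∈ Icc 1 M, b n * f n =
      (∑ k ∈ Icc 1 M, b k) * f (M + 1) +
        ∑ n ∈ Icc 1 M, (∑ k ∈ Icc 1 n, b k) * (f n - f (n + 1)) := by
  induction M with
  | zero => simp
  | succ M ih =>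
    rw [Finset.sum_Icc_succ_top (by omega) (fun n => b n * f n), ih,
      Finset.sum_Icc_succ_top (by omega) (fun n => (∑ k ∈ Icc 1 n, b k) * (f n - f (n + 1))),
      Finset.sum_Icc_succ_top (by omega) b]
    ring

/-- `n^(-s)` is decreasing in `n`. -/
lemma rpow_neg_sub_nonneg (n : ℕ) (hn : 1 ≤ n) (s : ℝ) (hs : 0 ≤ s) :
    0 ≤ (n : ℝ) ^ (-s) - ((n + 1 : ℕ) : ℝ) ^ (-s) := by
  have hn0 : (0 : ℝ) < n := by exact_mod_cast hn
  have h : ((n + 1 : ℕ) : ℝ) ^ (-s) ≤ (n : ℝ) ^ (-s) :=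
    Real.rpow_le_rpow_of_nonpos hn0 (by push_cast; linarith) (by linarith)
  linarith

/-- The elementary bound `n^(-s) - (n+1)^(-s) ≤ s n^(-s-1)` for `s ≥ 1`. -/
lemma rpow_neg_sub_le (n : ℕ) (hn : 1 ≤ n) (s : ℝ) (hs : 1 ≤ s) :
    (n : ℝ) ^ (-s) - ((n + 1 : ℕ) : ℝ) ^ (-s) ≤ s * (n : ℝ) ^ (-s - 1) := by
  have hx : (0 : ℝ) < n := by exact_mod_cast hn
  set x : ℝ := (n : ℝ) with hxdef
  have hx1 : (0 : ℝ) < x + 1 := by linarith
  have hcast : ((n + 1 : ℕ) : ℝ) = x + 1 := by push_cast; rfl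
  rw [hcast]
  -- Bernoulli
  have hbern : 1 + s * (-1 / (x + 1)) ≤ (1 + (-1 / (x + 1))) ^ s := by
    apply one_add_mul_self_le_rpow_one_add _ hs
    rw [neg_div, neg_le_neg_iff, div_le_one hx1]
    linarith
  have hfrac : 1 + (-1 / (x + 1)) = x / (x + 1) := by
    field_simp
    ring
  rw [hfrac] at hbern
  have hsplit : (x + 1) ^ (-s) = x ^ (-s) * (x / (x + 1)) ^ s := by
    rw [Real.div_rpow hx.le hx1.le, Real.rpow_neg hx.le, Real.rpow_neg hx1.le]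
    have : x ^ s ≠ 0 := (Real.rpow_pos_of_pos hx s).ne'
    field_simp
  have hxs : 0 < x ^ (-s) := Real.rpow_pos_of_pos hx _
  have h1 : x ^ (-s) - (x + 1) ^ (-s) ≤ x ^ (-s) * (s / (x + 1)) := by
    rw [hsplit]
    have : 1 - s / (x + 1) ≤ (x / (x + 1)) ^ s := by
      have e : 1 + s * (-1 / (x + 1)) = 1 - s / (x + 1) := by ring
      rw [e] at hbern
      exact hbern
    nlinarith
  have h2 : x ^ (-s) * (s / (x + 1)) ≤ s * x ^ (-s - 1) := by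
    rw [Real.rpow_sub hx, Real.rpow_one]
    have h3 : s / (x + 1) ≤ s / x := by
      apply div_le_div_of_nonneg_left (by linarith) hx (by linarith)
    calc x ^ (-s) * (s / (x + 1)) ≤ x ^ (-s) * (s / x) := by
          apply mul_le_mul_of_nonneg_left h3 hxs.le
      _ = s * (x ^ (-s) / x) := by ring
  linarith

/-- For a sequence vanishing at `0`, sums over `range (M+1)` and over `Icc 1 M` agree. -/
lemma sum_range_succ_eq_sum_Icc (g : ℕ → ℝ) (h0 : g 0 = 0) (M : ℕ) :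
    ∑ i ∈ range (M + 1), g i = ∑ i ∈ Icc 1 M, g i := by
  induction M with
  | zero => simp [h0]
  | succ M ih =>
    rw [Finset.sum_range_succ, ih, Finset.sum_Icc_succ_top (by omega)]

lemma sum_Icc_sub_const (a : ℕ → ℝ) (κ : ℝ) (n : ℕ) :
    ∑ k ∈ Icc 1 n, (a k - κ) = ∑ k ∈ Icc 1 n, a k - κ * n := by
  rw [Finset.sum_sub_distrib, Finset.sum_const, Nat.card_Icc]
  simp [mul_comm]

/-- Uniform bound for the partial sums of `∑ (a n - κ) n^(-s)`. -/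
lemma abs_sum_Icc_le (a : ℕ → ℝ) (κ C δ : ℝ) (hδ : 0 < δ) (hC : 0 ≤ C)
    (h : ∀ n : ℕ, 1 ≤ n → |∑ k ∈ Icc 1 n, a k - κ * n| ≤ C * (n : ℝ) ^ (1 - δ))
    (s : ℝ) (hs1 : 1 < s) (hs2 : s ≤ 2) (M : ℕ) :
    |∑ n ∈ Icc 1 M, (a n - κ) * (n : ℝ) ^ (-s)| ≤
      C + 2 * C * ∑' n : ℕ, (n : ℝ) ^ (-(1 + δ)) := by
  have hZsum : Summable (fun n : ℕ => (n : ℝ) ^ (-(1 + δ))) :=
    Real.summable_nat_rpow.mpr (by linarith)
  have hZnn : ∀ n : ℕ, 0 ≤ (n : ℝ) ^ (-(1 + δ)) := fun n =>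
    Real.rpow_nonneg (Nat.cast_nonneg n) _
  set Z := ∑' n : ℕ, (n : ℝ) ^ (-(1 + δ)) with hZ
  rw [sum_Icc_by_parts (fun n => a n - κ) (fun n : ℕ => (n : ℝ) ^ (-s)) M]
  simp only [sum_Icc_sub_const]
  -- boundary term
  have hbd : |(∑ k ∈ Icc 1 M, a k - κ * M) * ((M + 1 : ℕ) : ℝ) ^ (-s)| ≤ C := by
    rcases Nat.eq_zero_or_pos M with hM | hM
    · subst hM
      simpa using hC
    · have hM0 : (0 : ℝ) < M := by exact_mod_cast hM
      have hM1 : (1 : ℝ) ≤ M := by exact_mod_cast hM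
      rw [abs_mul]
      have h1 := h M hM
      have h2 : |((M + 1 : ℕ) : ℝ) ^ (-s)| ≤ (M : ℝ) ^ (-s) := by
        rw [abs_of_nonneg (Real.rpow_nonneg (Nat.cast_nonneg _) _)]
        exact Real.rpow_le_rpow_of_nonpos hM0 (by push_cast; linarith) (by linarith)
      have h3 : (M : ℝ) ^ (1 - δ) * (M : ℝ) ^ (-s) ≤ 1 := by
        rw [← Real.rpow_add hM0]
        exact Real.rpow_le_one_of_one_le_of_nonpos hM1 (by linarith)
      calc |∑ k ∈ Icc 1 M, a k - κ * M| * |((M + 1 : ℕ) : ℝ) ^ (-s)|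
          ≤ (C * (M : ℝ) ^ (1 - δ)) * (M : ℝ) ^ (-s) :=
            mul_le_mul h1 h2 (abs_nonneg _) (by positivity)
        _ = C * ((M : ℝ) ^ (1 - δ) * (M : ℝ) ^ (-s)) := by ring
        _ ≤ C * 1 := mul_le_mul_of_nonneg_left h3 hC
        _ = C := mul_one C
  -- main sum
  have hmain : |∑ n ∈ Icc 1 M, (∑ k ∈ Icc 1 n, a k - κ * n) *
      ((n : ℝ) ^ (-s) - ((n + 1 : ℕ) : ℝ) ^ (-s))| ≤ 2 * C * Z := by
    calc |∑ n ∈ Icc 1 M, (∑ k ∈ Icc 1 n, a k - κ * n) *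
          ((n : ℝ) ^ (-s) - ((n + 1 : ℕ) : ℝ) ^ (-s))|
        ≤ ∑ n ∈ Icc 1 M, |(∑ k ∈ Icc 1 n, a k - κ * n) *
          ((n : ℝ) ^ (-s) - ((n + 1 : ℕ) : ℝ) ^ (-s))| := Finset.abs_sum_le_sum_abs _ _
      _ ≤ ∑ n ∈ Icc 1 M, 2 * C * (n : ℝ) ^ (-(1 + δ)) := by
          apply Finset.sum_le_sum
          intro n hn
          have hn1 : 1 ≤ n := (Finset.mem_Icc.mp hn).1
          have hn0 : (0 : ℝ) < n := by exact_mod_cast hn1
          have hnr : (1 : ℝ) ≤ n := by exact_mod_cast hn1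
          rw [abs_mul, abs_of_nonneg (rpow_neg_sub_nonneg n hn1 s (by linarith))]
          have h1 := h n hn1
          have h2 := rpow_neg_sub_le n hn1 s hs1.le
          have h3 : (n : ℝ) ^ (1 - δ) * (n : ℝ) ^ (-s - 1) ≤ (n : ℝ) ^ (-(1 + δ)) := by
            rw [← Real.rpow_add hn0]
            exact Real.rpow_le_rpow_of_exponent_le hnr (by linarith)
          have hpos : 0 ≤ (n : ℝ) ^ (-s - 1) := Real.rpow_nonneg hn0.le _
          calc |∑ k ∈ Icc 1 n, a k - κ * n| * ((n : ℝ) ^ (-s) - ((n + 1 : ℕ) : ℝ) ^ (-s))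
              ≤ (C * (n : ℝ) ^ (1 - δ)) * (s * (n : ℝ) ^ (-s - 1)) :=
                mul_le_mul h1 h2 (rpow_neg_sub_nonneg n hn1 s (by linarith)) (by positivity)
            _ = (s * C) * ((n : ℝ) ^ (1 - δ) * (n : ℝ) ^ (-s - 1)) := by ring
            _ ≤ (2 * C) * (n : ℝ) ^ (-(1 + δ)) := by
                apply mul_le_mul _ h3 (by positivity) (by positivity)
                exact mul_le_mul_of_nonneg_right hs2 hC
      _ = 2 * C * ∑ n ∈ Icc 1 M, (n : ℝ) ^ (-(1 + δ)) := by rw [Finset.mul_sum]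
      _ ≤ 2 * C * Z := by
          apply mul_le_mul_of_nonneg_left _ (by positivity)
          exact hZsum.sum_le_tsum _ (fun i _ => hZnn i)
  calc |(∑ k ∈ Icc 1 M, a k - κ * M) * ((M + 1 : ℕ) : ℝ) ^ (-s) +
        ∑ n ∈ Icc 1 M, (∑ k ∈ Icc 1 n, a k - κ * n) *
          ((n : ℝ) ^ (-s) - ((n + 1 : ℕ) : ℝ) ^ (-s))|
      ≤ |(∑ k ∈ Icc 1 M, a k - κ * M) * ((M + 1 : ℕ) : ℝ) ^ (-s)| +
        |∑ n ∈ Icc 1 M, (∑ k ∈ Icc 1 n, a k - κ * n) *
          ((n : ℝ) ^ (-s) - ((n + 1 : ℕ) : ℝ) ^ (-s))| := abs_add_le _ _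
    _ ≤ C + 2 * C * Z := add_le_add hbd hmain

/-- **P4 (Abel summation bound).**  If `a n ≥ 0` and the summatory function of `a` is
`κ n + O(n^(1-δ))`, then the Dirichlet series `∑ a n n^(-s)` converges for `s > 1` and differs from
`κ ζ(s)` by a bounded amount, uniformly for `s ∈ (1, 2]`. -/
theorem abel_bound_Icc (a : ℕ → ℝ) (ha : ∀ n, 0 ≤ a n) (κ C δ : ℝ) (hδ : 0 < δ)
    (h : ∀ n : ℕ, 1 ≤ n → |∑ k ∈ Icc 1 n, a k - κ * n| ≤ C * (n : ℝ) ^ (1 - δ)) :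
    ∃ B : ℝ, ∀ s : ℝ, 1 < s → s ≤ 2 →
      Summable (fun n : ℕ => a n * (n : ℝ) ^ (-s)) ∧
      |∑' n : ℕ, a n * (n : ℝ) ^ (-s) - κ * ∑' n : ℕ, (n : ℝ) ^ (-s)| ≤ B := by
  have hC : 0 ≤ C := by
    have h1 := h 1 le_rfl
    simp only [Nat.cast_one, Real.one_rpow, mul_one] at h1
    exact (abs_nonneg _).trans h1
  have hZnn : ∀ n : ℕ, 0 ≤ (n : ℝ) ^ (-(1 + δ)) := fun n =>
    Real.rpow_nonneg (Nat.cast_nonneg n) _
  set B : ℝ := C + 2 * C * ∑' n : ℕ, (n : ℝ) ^ (-(1 + δ)) with hB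
  have hB0 : 0 ≤ B := by
    have : 0 ≤ ∑' n : ℕ, (n : ℝ) ^ (-(1 + δ)) := tsum_nonneg hZnn
    positivity
  refine ⟨B, fun s hs1 hs2 => ?_⟩
  have hfsum : Summable (fun n : ℕ => (n : ℝ) ^ (-s)) :=
    Real.summable_nat_rpow.mpr (by linarith)
  have hfnn : ∀ n : ℕ, 0 ≤ (n : ℝ) ^ (-s) := fun n => Real.rpow_nonneg (Nat.cast_nonneg n) _
  have hf0 : ((0 : ℕ) : ℝ) ^ (-s) = 0 := by
    rw [Nat.cast_zero, Real.zero_rpow (by linarith)]
  have hpart := abs_sum_Icc_le a κ C δ hδ hC h s hs1 hs2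
  -- summability
  have hsum : Summable (fun n : ℕ => a n * (n : ℝ) ^ (-s)) := by
    apply summable_of_sum_range_le (c := B + |κ| * ∑' n : ℕ, (n : ℝ) ^ (-s))
      (fun n => mul_nonneg (ha n) (hfnn n))
    intro n
    calc ∑ i ∈ range n, a i * (i : ℝ) ^ (-s)
        ≤ ∑ i ∈ range (n + 1), a i * (i : ℝ) ^ (-s) :=
          Finset.sum_le_sum_of_subset_of_nonneg (Finset.range_mono (Nat.le_succ n))
            (fun i _ _ => mul_nonneg (ha i) (hfnn i))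
      _ = ∑ i ∈ Icc 1 n, a i * (i : ℝ) ^ (-s) :=
          sum_range_succ_eq_sum_Icc _ (by rw [hf0, mul_zero]) n
      _ = ∑ i ∈ Icc 1 n, (a i - κ) * (i : ℝ) ^ (-s) + κ * ∑ i ∈ Icc 1 n, (i : ℝ) ^ (-s) := by
          rw [Finset.mul_sum, ← Finset.sum_add_distrib]
          apply Finset.sum_congr rfl
          intro i _
          ring
      _ ≤ B + |κ| * ∑' n : ℕ, (n : ℝ) ^ (-s) := by
          apply add_le_add ((le_abs_self _).trans (hpart n))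
          calc κ * ∑ i ∈ Icc 1 n, (i : ℝ) ^ (-s) ≤ |κ| * ∑ i ∈ Icc 1 n, (i : ℝ) ^ (-s) :=
                mul_le_mul_of_nonneg_right (le_abs_self κ) (Finset.sum_nonneg fun i _ => hfnn i)
            _ ≤ |κ| * ∑' n : ℕ, (n : ℝ) ^ (-s) :=
                mul_le_mul_of_nonneg_left (hfsum.sum_le_tsum _ (fun i _ => hfnn i)) (abs_nonneg κ)
  refine ⟨hsum, ?_⟩
  -- the bound on the limit
  have hg : Summable (fun n : ℕ => (a n - κ) * (n : ℝ) ^ (-s)) := by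
    have := hsum.sub (hfsum.mul_left κ)
    refine this.congr (fun n => ?_)
    ring
  have htsum : ∑' n : ℕ, (a n - κ) * (n : ℝ) ^ (-s) =
      ∑' n : ℕ, a n * (n : ℝ) ^ (-s) - κ * ∑' n : ℕ, (n : ℝ) ^ (-s) := by
    rw [← tsum_mul_left, ← (hsum.tsum_sub (hfsum.mul_left κ))]
    apply tsum_congr
    intro n
    ring
  rw [← htsum]
  have htend := (hg.hasSum.tendsto_sum_nat).abs
  refine le_of_tendsto' htend (fun n => ?_)
  rcases Nat.eq_zero_or_pos n with hn | hn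
  · subst hn
    simpa using hB0
  · obtain ⟨M, rfl⟩ : ∃ M, n = M + 1 := ⟨n - 1, by omega⟩
    rw [sum_range_succ_eq_sum_Icc _ (by rw [hf0, mul_zero]) M]
    exact hpart M


/-- **P4**, variant with the summatory function taken over `range (n + 1)` (so including `a 0`)
and the hypothesis required for all `n`; here `δ ≤ 1` is needed to absorb `a 0`. -/
theorem abel_bound_range (a : ℕ → ℝ) (ha : ∀ n, 0 ≤ a n) (κ C δ : ℝ) (hδ : 0 < δ) (hδ1 : δ ≤ 1)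
    (h : ∀ n : ℕ, |∑ k ∈ range (n + 1), a k - κ * n| ≤ C * (n : ℝ) ^ (1 - δ)) :
    ∃ B : ℝ, ∀ s : ℝ, 1 < s → s ≤ 2 →
      Summable (fun n : ℕ => a n * (n : ℝ) ^ (-s)) ∧
      |∑' n : ℕ, a n * (n : ℝ) ^ (-s) - κ * ∑' n : ℕ, (n : ℝ) ^ (-s)| ≤ B := by
  refine abel_bound_Icc a ha κ (C + a 0) δ hδ (fun n hn => ?_)
  have hn1 : (1 : ℝ) ≤ n := by exact_mod_cast hn
  have hpow : (1 : ℝ) ≤ (n : ℝ) ^ (1 - δ) := Real.one_le_rpow hn1 (by linarith)
  have hsplit : ∑ k ∈ range (n + 1), a k = a 0 + ∑ k ∈ Icc 1 n, a k := by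
    have := sum_range_succ_eq_sum_Icc (fun k => if k = 0 then 0 else a k) (by simp) n
    rw [Finset.sum_range_succ'] 
    rw [Finset.sum_range_succ'] at this
    simp only [Nat.add_eq_zero_iff, one_ne_zero, and_false, if_false, if_true, add_zero] at this
    rw [this, add_comm]
    congr 1
    apply Finset.sum_congr rfl
    intro k hk
    have : k ≠ 0 := by
      have := (Finset.mem_Icc.mp hk).1
      omega
    simp [this]
  have h1 := h n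
  rw [hsplit] at h1
  have h2 : |∑ k ∈ Icc 1 n, a k - κ * n| ≤ |a 0 + ∑ k ∈ Icc 1 n, a k - κ * n| + |a 0| := by
    have e : ∑ k ∈ Icc 1 n, a k - κ * n = (a 0 + ∑ k ∈ Icc 1 n, a k - κ * n) - a 0 := by ring
    rw [e]
    exact abs_sub _ _
  rw [abs_of_nonneg (ha 0)] at h2
  calc |∑ k ∈ Icc 1 n, a k - κ * n| ≤ C * (n : ℝ) ^ (1 - δ) + a 0 := by linarith
    _ ≤ C * (n : ℝ) ^ (1 - δ) + a 0 * (n : ℝ) ^ (1 - δ) := by
        have := mul_le_mul_of_nonneg_left hpow (ha 0)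
        linarith
    _ = (C + a 0) * (n : ℝ) ^ (1 - δ) := by ring


/-- `∑_{k < n} g (k+1) = ∑_{1 ≤ k ≤ n} g k`. -/
lemma sum_range_shift_eq_sum_Icc (g : ℕ → ℝ) (n : ℕ) :
    ∑ k ∈ range n, g (k + 1) = ∑ k ∈ Icc 1 n, g k := by
  induction n with
  | zero => simp
  | succ n ih => rw [Finset.sum_range_succ, ih, Finset.sum_Icc_succ_top (by omega)]

set_option linter.unusedVariables false in
/-- **P4 (Abel summation bound), in the exact shape of the SI-AN skeleton**: shifted indexing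
`∑ a (n+1) (n+1)^(-s)`.  (`hδ1` and `hC` are not needed.) -/
theorem abel_bound (a : ℕ → ℝ) (ha : ∀ n, 0 ≤ a n) (κ C δ : ℝ) (hδ : 0 < δ) (hδ1 : δ ≤ 1)
    (hC : 0 ≤ C)
    (h : ∀ n : ℕ, |∑ k ∈ Finset.range n, a (k + 1) - κ * n| ≤ C * (n : ℝ) ^ (1 - δ)) :
    ∃ B : ℝ, ∀ s : ℝ, 1 < s → s ≤ 2 →
      Summable (fun n : ℕ => a (n + 1) * ((n : ℝ) + 1) ^ (-s)) ∧
      |∑' n : ℕ, a (n + 1) * ((n : ℝ) + 1) ^ (-s) - κ * ∑' n : ℕ, ((n : ℝ) + 1) ^ (-s)| ≤ B := by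
  obtain ⟨B, hB⟩ := abel_bound_Icc a ha κ C δ hδ (fun n _ => by
    rw [← sum_range_shift_eq_sum_Icc]
    exact h n)
  refine ⟨B, fun s hs1 hs2 => ?_⟩
  obtain ⟨hsum, hbd⟩ := hB s hs1 hs2
  have hfsum : Summable (fun n : ℕ => (n : ℝ) ^ (-s)) :=
    Real.summable_nat_rpow.mpr (by linarith)
  have hf0 : ((0 : ℕ) : ℝ) ^ (-s) = 0 := by
    rw [Nat.cast_zero, Real.zero_rpow (by linarith)]
  have e1 : (fun n : ℕ => a (n + 1) * ((n : ℝ) + 1) ^ (-s)) =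
      fun n : ℕ => (fun m : ℕ => a m * (m : ℝ) ^ (-s)) (n + 1) := by
    funext n
    simp only [Nat.cast_add, Nat.cast_one]
  have e2 : (fun n : ℕ => ((n : ℝ) + 1) ^ (-s)) =
      fun n : ℕ => (fun m : ℕ => (m : ℝ) ^ (-s)) (n + 1) := by
    funext n
    simp only [Nat.cast_add, Nat.cast_one]
  have t1 : ∑' n : ℕ, a (n + 1) * ((n : ℝ) + 1) ^ (-s) = ∑' n : ℕ, a n * (n : ℝ) ^ (-s) := by
    rw [e1, hsum.tsum_eq_zero_add, hf0, mul_zero, zero_add]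
  have t2 : ∑' n : ℕ, ((n : ℝ) + 1) ^ (-s) = ∑' n : ℕ, (n : ℝ) ^ (-s) := by
    rw [e2, hfsum.tsum_eq_zero_add, hf0, zero_add]
  refine ⟨?_, ?_⟩
  · rw [e1]
    exact (summable_nat_add_iff 1).mpr hsum
  · rw [t1, t2]
    exact hbd

end Fermat.Agent.S14.SIan
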