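/-
T14 / SI-AN (analytic hedge for `index_normClasses_le`): the covering property used for the error
term in lattice point counting.  Mathlib only.  (Definition file: frozen once landed.)
-/
import Mathlib

set_option autoImplicit false

namespace Fermat.Agent.S14.SIan

/-- `S` can be covered by at most `A * N^m` closed balls of radius `1/N`, for every `N ≥ 1`
("`S` has box dimension at most `m`", with a uniform constant). -/
def CoverDim {E : Type*} [PseudoMetricSpace E] (S : Set E) (m : ℕ) : Prop :=
  ∃ A : ℝ, ∀ N : ℕ, 0 < N → ∃ T : Finset E, (T.card : ℝ) ≤ A * (N : ℝ) ^ m ∧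
    S ⊆ ⋃ x ∈ T, Metric.closedBall x (1 / (N : ℝ))

end Fermat.Agent.S14.SIan
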