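/-
T14 / SI-AN, package P2a: calculus of the covering property `CoverDim` (Mathlib only).

Math.  (mono/union/finite unions) obvious (constants add).
(Lipschitz image) `f` `K`-Lipschitz on `S`, `N` given: cover `S` by balls `B(x_k, 1/N')` with
`N' := N * (2 * (⌈K⌉₊ + 1))`; for each ball meeting `S` pick `s_k ∈ S` in it; then
`B(x_k, 1/N') ∩ S ⊆ B(s_k, 2/N') ∩ S` is mapped into `B(f s_k, 2K/N') ⊆ B(f s_k, 1/N)`.
The number of balls is `≤ A N'^m = A (2(⌈K⌉₊+1))^m N^m`.
(cube face) sup norm on `ι → ℝ`: centres `i ↦ if i = j then a else k i / N`, `k : {i // i ≠ j} → Fin N`;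
for `y` in the face take `k i := min ⌊y i * N⌋₊ (N-1)`, then `|y i - k i / N| ≤ 1/N`.
-/
import Fermat.Agent.S14.SIan.Cover

set_option autoImplicit false

open scoped NNReal

namespace Fermat.Agent.S14.SIan

variable {E E' : Type*} [PseudoMetricSpace E] [PseudoMetricSpace E']

theorem CoverDim.mono {S S' : Set E} {m : ℕ} (h : S ⊆ S') (hS' : CoverDim S' m) :
    CoverDim S m := by
  obtain ⟨A, hA⟩ := hS'
  refine ⟨A, fun N hN => ?_⟩
  obtain ⟨T, hT, hST⟩ := hA N hN
  exact ⟨T, hT, h.trans hST⟩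

theorem CoverDim.union {S S' : Set E} {m : ℕ} (hS : CoverDim S m) (hS' : CoverDim S' m) :
    CoverDim (S ∪ S') m := by
  classical
  obtain ⟨A, hA⟩ := hS
  obtain ⟨A', hA'⟩ := hS'
  refine ⟨A + A', fun N hN => ?_⟩
  obtain ⟨T, hT, hST⟩ := hA N hN
  obtain ⟨T', hT', hST'⟩ := hA' N hN
  refine ⟨T ∪ T', ?_, ?_⟩
  · calc ((T ∪ T').card : ℝ) ≤ (T.card : ℝ) + (T'.card : ℝ) := by
          exact_mod_cast Finset.card_union_le T T'
      _ ≤ A * (N : ℝ) ^ m + A' * (N : ℝ) ^ m := add_le_add hT hT'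
      _ = (A + A') * (N : ℝ) ^ m := by ring
  · rintro z (hz | hz)
    · obtain ⟨x, hx, hzx⟩ := Set.mem_iUnion₂.1 (hST hz)
      exact Set.mem_iUnion₂.2 ⟨x, Finset.mem_union_left _ hx, hzx⟩
    · obtain ⟨x, hx, hzx⟩ := Set.mem_iUnion₂.1 (hST' hz)
      exact Set.mem_iUnion₂.2 ⟨x, Finset.mem_union_right _ hx, hzx⟩

theorem CoverDim.iUnion_finite {ι : Type*} [Finite ι] {S : ι → Set E} {m : ℕ}
    (h : ∀ i, CoverDim (S i) m) : CoverDim (⋃ i, S i) m := by
  classical
  cases nonempty_fintype ι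
  choose A hA using h
  refine ⟨∑ i, A i, fun N hN => ?_⟩
  choose T hT hST using fun i => hA i N hN
  refine ⟨Finset.univ.biUnion T, ?_, ?_⟩
  · calc ((Finset.univ.biUnion T).card : ℝ) ≤ ((∑ i, (T i).card : ℕ) : ℝ) := by
          exact_mod_cast Finset.card_biUnion_le
      _ = ∑ i, ((T i).card : ℝ) := by push_cast; rfl
      _ ≤ ∑ i, A i * (N : ℝ) ^ m := Finset.sum_le_sum fun i _ => hT i
      _ = (∑ i, A i) * (N : ℝ) ^ m := by rw [Finset.sum_mul]
  · intro z hz
    obtain ⟨i, hzi⟩ := Set.mem_iUnion.1 hz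
    obtain ⟨x, hx, hzx⟩ := Set.mem_iUnion₂.1 (hST i hzi)
    exact Set.mem_iUnion₂.2 ⟨x, Finset.mem_biUnion.2 ⟨i, Finset.mem_univ _, hx⟩, hzx⟩

theorem CoverDim.image_lipschitzOn {f : E → E'} {K : ℝ≥0} {S : Set E} {m : ℕ}
    (hf : LipschitzOnWith K f S) (hS : CoverDim S m) : CoverDim (f '' S) m := by
  classical
  obtain ⟨A, hA⟩ := hS
  set k : ℕ := 2 * (⌈(K : ℝ)⌉₊ + 1) with hk
  have hk0 : 0 < k := by rw [hk]; positivity
  have hKk : 2 * (K : ℝ) ≤ k := by
    rw [hk]; push_cast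
    have := Nat.le_ceil (K : ℝ)
    linarith
  refine ⟨A * (k : ℝ) ^ m, fun N hN => ?_⟩
  obtain ⟨T, hT, hST⟩ := hA (k * N) (Nat.mul_pos hk0 hN)
  -- choose a point of `S` in each ball that meets `S`
  have hchoice : ∀ x : E, ∃ s : E,
      (Metric.closedBall x (1 / ((k * N : ℕ) : ℝ)) ∩ S).Nonempty →
        s ∈ Metric.closedBall x (1 / ((k * N : ℕ) : ℝ)) ∩ S := by
    intro x
    by_cases hx : (Metric.closedBall x (1 / ((k * N : ℕ) : ℝ)) ∩ S).Nonempty
    · exact ⟨hx.some, fun _ => hx.some_mem⟩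
    · exact ⟨x, fun h => absurd h hx⟩
  choose s hs using hchoice
  refine ⟨T.image (fun x => f (s x)), ?_, ?_⟩
  · calc ((T.image (fun x => f (s x))).card : ℝ) ≤ T.card := by
          exact_mod_cast Finset.card_image_le
      _ ≤ A * ((k * N : ℕ) : ℝ) ^ m := hT
      _ = A * (k : ℝ) ^ m * (N : ℝ) ^ m := by push_cast; rw [mul_pow]; ring
  · rintro _ ⟨z, hz, rfl⟩
    obtain ⟨t, ht, hzt⟩ := Set.mem_iUnion₂.1 (hST hz)
    have hst := hs t ⟨z, hzt, hz⟩
    refine Set.mem_iUnion₂.2 ⟨f (s t), Finset.mem_image_of_mem _ ht, ?_⟩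
    rw [Metric.mem_closedBall] at hzt ⊢
    have hst1 : dist (s t) t ≤ 1 / ((k * N : ℕ) : ℝ) := Metric.mem_closedBall.1 hst.1
    have hN' : (0 : ℝ) < N := by exact_mod_cast hN
    have hk' : (0 : ℝ) < k := by exact_mod_cast hk0
    have hd : dist z (s t) ≤ 2 * (1 / ((k * N : ℕ) : ℝ)) := by
      calc dist z (s t) ≤ dist z t + dist t (s t) := dist_triangle _ _ _
        _ ≤ 1 / ((k * N : ℕ) : ℝ) + 1 / ((k * N : ℕ) : ℝ) := by
            rw [dist_comm t (s t)]; exact add_le_add hzt hst1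
        _ = 2 * (1 / ((k * N : ℕ) : ℝ)) := by ring
    calc dist (f z) (f (s t)) ≤ K * dist z (s t) := hf.dist_le_mul z hz (s t) hst.2
      _ ≤ K * (2 * (1 / ((k * N : ℕ) : ℝ))) :=
          mul_le_mul_of_nonneg_left hd K.coe_nonneg
      _ = (2 * K) * (1 / ((k * N : ℕ) : ℝ)) := by ring
      _ ≤ k * (1 / ((k * N : ℕ) : ℝ)) := by
          apply mul_le_mul_of_nonneg_right hKk
          positivity
      _ = 1 / N := by
          push_cast
          field_simp

theorem coverDim_cube_face {ι : Type*} [Fintype ι] (j : ι) (a : ℝ) :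
    CoverDim {y : ι → ℝ | (∀ i, y i ∈ Set.Icc (0 : ℝ) 1) ∧ y j = a} (Fintype.card ι - 1) := by
  classical
  refine ⟨1, fun N hN => ?_⟩
  have hN' : (0 : ℝ) < N := by exact_mod_cast hN
  -- the centres
  let c : ({i : ι // i ≠ j} → Fin N) → (ι → ℝ) := fun k i =>
    if h : i = j then a else ((k ⟨i, h⟩ : ℕ) : ℝ) / N
  refine ⟨Finset.univ.image c, ?_, ?_⟩
  · have hcard : Fintype.card ({i : ι // i ≠ j} → Fin N) = N ^ (Fintype.card ι - 1) := by
      rw [Fintype.card_fun, Fintype.card_fin, Fintype.card_subtype_compl, Fintype.card_subtype_eq]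
    calc ((Finset.univ.image c).card : ℝ) ≤ ((Finset.univ : Finset ({i : ι // i ≠ j} → Fin N)).card : ℝ) := by
          exact_mod_cast Finset.card_image_le
      _ = (N : ℝ) ^ (Fintype.card ι - 1) := by
          rw [Finset.card_univ, hcard]; push_cast; rfl
      _ = 1 * (N : ℝ) ^ (Fintype.card ι - 1) := (one_mul _).symm
  · rintro y ⟨hy, hyj⟩
    have hfl : ∀ i, min ⌊y i * N⌋₊ (N - 1) < N := fun i =>
      lt_of_le_of_lt (min_le_right _ _) (Nat.sub_lt hN Nat.one_pos)
    refine Set.mem_iUnion₂.2 ⟨c fun i => ⟨min ⌊y i.1 * N⌋₊ (N - 1), hfl i.1⟩,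
      Finset.mem_image_of_mem _ (Finset.mem_univ _), ?_⟩
    rw [Metric.mem_closedBall, dist_pi_le_iff (by positivity)]
    intro i
    by_cases hi : i = j
    · subst hi
      simp only [c, dif_pos rfl, hyj, dist_self]
      positivity
    · simp only [c, dif_neg hi]
      have h0 : 0 ≤ y i * N := mul_nonneg (hy i).1 hN'.le
      have h1 : y i * N ≤ N := by
        have := (hy i).2
        nlinarith
      set kk : ℕ := min ⌊y i * N⌋₊ (N - 1) with hkk
      have hle : (kk : ℝ) ≤ y i * N :=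
        le_trans (by exact_mod_cast min_le_left _ _) (Nat.floor_le h0)
      have hge : y i * N ≤ (kk : ℝ) + 1 := by
        rcases le_total ⌊y i * N⌋₊ (N - 1) with h | h
        · rw [hkk, min_eq_left h]
          exact (Nat.lt_floor_add_one _).le
        · rw [hkk, min_eq_right h]
          have : ((N - 1 : ℕ) : ℝ) + 1 = N := by
            rw [Nat.cast_sub hN]; simp
          rw [this]; exact h1
      rw [Real.dist_eq, abs_le]
      constructor
      · rw [le_sub_iff_add_le, neg_add_eq_sub, sub_le_iff_le_add]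
        calc (kk : ℝ) / N ≤ y i * N / N := by gcongr
          _ = y i := by field_simp
          _ ≤ y i + 1 / N := by linarith [one_div_pos.2 hN']
      · rw [sub_le_iff_le_add]
        calc y i = y i * N / N := by field_simp
          _ ≤ ((kk : ℝ) + 1) / N := by gcongr
          _ = 1 / N + (kk : ℝ) / N := by ring

end Fermat.Agent.S14.SIan
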