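/-
T14 / SI-AN, package P2b: the covering property of the frontier of `normLeOne K`.  Mathlib only
(on top of the covering calculus `CoverCalc.lean`).

Math.  Mathlib proves `closure (normLeOne K) ⊆ normAtAllPlaces ⁻¹' compactSet K` and
`normAtAllPlaces ⁻¹' (expMapBasis '' interior (paramSet K)) ⊆ interior (normLeOne K)`, so the frontier
lies in `normAtAllPlaces ⁻¹' (compactSet K \ expMapBasis '' interior (paramSet K))`.  A point of that
difference is `Rmap y := y w₀ • expMapBasis (y with 0 at w₀)` with `y ∈ [0,1]^places` on the boundary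
of the cube.  Adding signs at the real places and angles at the complex places, the frontier is
contained in a finite union of images of faces of the unit cube `[0,1]^(places ⊕ complex places)`
under the smooth (hence Lipschitz on the cube) maps `Ψ ε`.
-/
import Fermat.Agent.S14.SIan.CoverCalc

set_option autoImplicit false

open NumberField NumberField.mixedEmbedding NumberField.mixedEmbedding.fundamentalCone Module
  NumberField.InfinitePlace NumberField.Units.dirichletUnitTheorem

namespace Fermat.Agent.S14.SIan

variable (K : Type*) [Field K] [NumberField K]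

open scoped Classical in
theorem frontier_normLeOne_subset :
    frontier (normLeOne K) ⊆
      normAtAllPlaces ⁻¹' (compactSet K \ expMapBasis '' interior (paramSet K)) := by
  intro x hx
  rw [frontier, Set.mem_sdiff] at hx
  exact ⟨closure_normLeOne_subset K hx.1, fun h => hx.2 (subset_interior_normLeOne K h)⟩

open scoped Classical in
/-- The radial parametrisation: `y w₀` is the scaling factor, the other coordinates are the
coordinates in the basis of units. -/
noncomputable def Rmap (y : realSpace K) : realSpace K :=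
  y w₀ • expMapBasis (fun i => if i = w₀ then 0 else y i)

open scoped Classical in
theorem mem_compactSet_diff {r : realSpace K}
    (hr : r ∈ compactSet K \ expMapBasis '' interior (paramSet K)) :
    ∃ y : realSpace K, (∀ w, y w ∈ Set.Icc (0 : ℝ) 1) ∧ (∃ w, y w = 0 ∨ y w = 1) ∧
      r = Rmap K y := by
  obtain ⟨⟨c, hc, _, ⟨z, hz, rfl⟩, rfl⟩, hr2⟩ := hr
  rw [Set.mem_univ_pi] at hz
  have hz0 : z w₀ = 0 := by simpa using hz w₀
  have hzw : ∀ w, w ≠ w₀ → z w ∈ Set.Icc (0 : ℝ) 1 := fun w hw => by simpa [hw] using hz w
  have hzeq : (fun i => if i = w₀ then (0 : ℝ) else z i) = z := by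
    ext i
    split_ifs with h
    · rw [h, hz0]
    · rfl
  refine ⟨fun w => if w = w₀ then c else z w, ?_, ?_, ?_⟩
  · intro w
    dsimp only
    split_ifs with h
    · exact hc
    · exact hzw w h
  · by_contra hcon
    push Not at hcon
    apply hr2
    have hc0 : 0 < c := lt_of_le_of_ne hc.1 (by simpa using (hcon w₀).1.symm)
    have hc1 : c < 1 := lt_of_le_of_ne hc.2 (by simpa using (hcon w₀).2)
    refine ⟨fun w => if w = w₀ then Real.log c else z w, ?_, ?_⟩
    · rw [interior_paramSet, Set.mem_univ_pi]
      intro w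
      split_ifs with h
      · exact Real.log_neg hc0 hc1
      · have h1 := hcon w
        simp only [h, if_false] at h1
        exact ⟨lt_of_le_of_ne (hzw w h).1 (Ne.symm h1.1), lt_of_le_of_ne (hzw w h).2 h1.2⟩
    · rw [expMapBasis_apply'', if_pos rfl, Real.exp_log hc0]
      congr 2
      ext i
      split_ifs with h
      · rw [h, hz0]
      · rfl
  · unfold Rmap
    simp only [if_true]
    congr 2
    ext i
    split_ifs with h
    · rw [h, hz0]
    · rfl


/-- The index type of the parametrising cube: one coordinate per infinite place (radial part) and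
one more per complex place (angle). -/
abbrev CubeIdx := InfinitePlace K ⊕ {w : InfinitePlace K // IsComplex w}

open scoped Classical in
theorem card_cubeIdx : Fintype.card (CubeIdx K) = finrank ℚ K := by
  rw [Fintype.card_sum, card_eq_nrRealPlaces_add_nrComplexPlaces, ← card_add_two_mul_card_eq_rank]
  unfold nrComplexPlaces
  ring

/-- sign attached to a boolean -/
def bsign (b : Bool) : ℝ := if b then 1 else -1

open scoped Classical in
/-- The parametrisation of (a set containing) the frontier. -/
noncomputable def Psi (ε : {w : InfinitePlace K // IsReal w} → Bool) (v : CubeIdx K → ℝ) :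
    mixedSpace K :=
  (fun w => bsign (ε w) * Rmap K (fun i => v (Sum.inl i)) w.1,
   fun w => (Rmap K (fun i => v (Sum.inl i)) w.1 : ℂ) *
      Complex.exp ((2 * Real.pi * (v (Sum.inr w) - 1 / 2) : ℝ) * Complex.I))


open scoped Classical in
theorem Rmap_apply (y : realSpace K) (w : InfinitePlace K) :
    Rmap K y w = y w₀ * Real.exp ((w.mult : ℝ)⁻¹ *
      ((completeBasis K).equivFunL.symm (fun i => if i = w₀ then 0 else y i)) w) := by
  rfl

open scoped Classical in
theorem contDiff_Rmap_comp (w : InfinitePlace K) :
    ContDiff ℝ 1 (fun v : CubeIdx K → ℝ => Rmap K (fun i => v (Sum.inl i)) w) := by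
  simp only [Rmap_apply]
  have h1 : ContDiff ℝ 1 (fun v : CubeIdx K → ℝ =>
      (fun i : InfinitePlace K => if i = w₀ then (0 : ℝ) else v (Sum.inl i))) := by
    refine contDiff_pi.mpr fun i => ?_
    split_ifs
    · exact contDiff_const
    · exact contDiff_apply ℝ ℝ (Sum.inl i)
  have h2 : ContDiff ℝ 1 (fun v : CubeIdx K → ℝ =>
      ((completeBasis K).equivFunL.symm (fun i => if i = w₀ then 0 else v (Sum.inl i))) w) := by
    have := ((completeBasis K).equivFunL.symm.contDiff (n := 1)).comp h1
    exact (contDiff_apply ℝ ℝ w).comp this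
  have h3 : ContDiff ℝ 1 (fun v : CubeIdx K → ℝ => v (Sum.inl w₀)) := contDiff_apply ℝ ℝ _
  exact h3.mul (Real.contDiff_exp.comp (contDiff_const.mul h2))

open scoped Classical in
theorem contDiff_Psi (ε : {w : InfinitePlace K // IsReal w} → Bool) :
    ContDiff ℝ 1 (Psi K ε) := by
  unfold Psi
  refine ContDiff.prodMk (contDiff_pi.mpr fun w => ?_) (contDiff_pi.mpr fun w => ?_)
  · exact contDiff_const.mul (contDiff_Rmap_comp K w.1)
  · refine (Complex.ofRealCLM.contDiff.comp (contDiff_Rmap_comp K w.1)).mul ?_
    refine Complex.contDiff_exp.comp (ContDiff.mul ?_ contDiff_const)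
    refine Complex.ofRealCLM.contDiff.comp ?_
    exact contDiff_const.mul ((contDiff_apply ℝ ℝ (Sum.inr w)).sub contDiff_const)

/-- The closed unit cube. -/
def unitCube : Set (CubeIdx K → ℝ) := {v | ∀ i, v i ∈ Set.Icc (0 : ℝ) 1}

open scoped Classical in
theorem exists_lipschitzOn_Psi (ε : {w : InfinitePlace K // IsReal w} → Bool) :
    ∃ C : NNReal, LipschitzOnWith C (Psi K ε) (unitCube K) := by
  have hcube : unitCube K = Set.univ.pi fun _ => Set.Icc (0 : ℝ) 1 := by
    ext v
    simp only [unitCube, Set.mem_ofPred_eq, Set.mem_univ_pi]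
  rw [hcube]
  exact (contDiff_Psi K ε).contDiffOn.exists_lipschitzOnWith one_ne_zero
    (convex_pi fun _ _ => convex_Icc 0 1) (isCompact_univ_pi fun _ => isCompact_Icc)


open scoped Classical in
theorem exists_eq_Psi {x : mixedSpace K} {y : realSpace K} (hy : ∀ w, y w ∈ Set.Icc (0 : ℝ) 1)
    (hx : normAtAllPlaces x = Rmap K y) :
    ∃ (ε : {w : InfinitePlace K // IsReal w} → Bool) (v : CubeIdx K → ℝ),
      v ∈ unitCube K ∧ (∀ i, v (Sum.inl i) = y i) ∧ x = Psi K ε v := by
  refine ⟨fun w => decide (0 ≤ x.1 w),
    fun i => Sum.elim y (fun w => Complex.arg (x.2 w) / (2 * Real.pi) + 1 / 2) i, ?_,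
    fun i => rfl, ?_⟩
  · rintro (i | w)
    · exact hy i
    · simp only [Sum.elim_inr]
      have h1 := Complex.neg_pi_lt_arg (x.2 w)
      have h2 := Complex.arg_le_pi (x.2 w)
      have hpi := Real.pi_pos
      constructor
      · have : -(1 / 2) ≤ Complex.arg (x.2 w) / (2 * Real.pi) := by
          rw [le_div_iff₀ (by positivity)]
          linarith
        linarith
      · have : Complex.arg (x.2 w) / (2 * Real.pi) ≤ 1 / 2 := by
          rw [div_le_iff₀ (by positivity)]
          linarith
        linarith
  · unfold Psi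
    refine Prod.ext (funext fun w => ?_) (funext fun w => ?_)
    · simp only [Sum.elim_inl]
      rw [← hx, normAtAllPlaces_apply, normAtPlace_apply_of_isReal w.2]
      unfold bsign
      by_cases h : 0 ≤ x.1 w
      · simp [h, Real.norm_of_nonneg h]
      · simp [h, Real.norm_of_nonpos (le_of_not_ge h)]
    · simp only [Sum.elim_inl, Sum.elim_inr]
      rw [← hx, normAtAllPlaces_apply, normAtPlace_apply_of_isComplex w.2]
      have hpi := Real.pi_pos
      have : (2 * Real.pi * (Complex.arg (x.2 w) / (2 * Real.pi) + 1 / 2 - 1 / 2) : ℝ) =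
          Complex.arg (x.2 w) := by
        field_simp
        ring
      rw [this, Complex.norm_mul_exp_arg_mul_I]

open scoped Classical in
theorem coverDim_frontier_normLeOne :
    CoverDim (frontier (normLeOne K)) (finrank ℚ K - 1) := by
  let face : InfinitePlace K → Bool → Set (CubeIdx K → ℝ) := fun j b =>
    {v | (∀ i, v i ∈ Set.Icc (0 : ℝ) 1) ∧ v (Sum.inl j) = if b then 1 else 0}
  have hface : ∀ j b, CoverDim (face j b) (finrank ℚ K - 1) := by
    intro j b
    have := coverDim_cube_face (ι := CubeIdx K) (Sum.inl j) (if b then 1 else 0)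
    rwa [card_cubeIdx] at this
  have hpiece : ∀ t : ({w : InfinitePlace K // IsReal w} → Bool) × InfinitePlace K × Bool,
      CoverDim (Psi K t.1 '' face t.2.1 t.2.2) (finrank ℚ K - 1) := by
    intro t
    obtain ⟨C, hC⟩ := exists_lipschitzOn_Psi K t.1
    exact CoverDim.image_lipschitzOn (hC.mono fun v hv => hv.1) (hface _ _)
  refine CoverDim.mono ?_ (CoverDim.iUnion_finite hpiece)
  intro x hx
  have h1 := frontier_normLeOne_subset K hx
  obtain ⟨y, hy, ⟨j, hj⟩, hr⟩ := mem_compactSet_diff K h1
  obtain ⟨ε, v, hv, hvy, rfl⟩ := exists_eq_Psi K hy hr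
  rw [Set.mem_iUnion]
  rcases hj with hj | hj
  · exact ⟨(ε, j, false), v, ⟨hv, by simp [hvy, hj]⟩, rfl⟩
  · exact ⟨(ε, j, true), v, ⟨hv, by simp [hvy, hj]⟩, rfl⟩

end Fermat.Agent.S14.SIan
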