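/-
T14 / SI-AN, package P1: lattice point counting in cone sets with a power-saving error term.
Mathlib only.  Quantitative version of `ZLattice.covolume.tendsto_card_le_div'`.

Math.  `D := {x ∈ X | F x ≤ 1}`, `{x ∈ X | F x ≤ c} = c^(1/d) • D`.  `P` := fundamental domain of a
`ℤ`-basis of `L` (bounded by `δ`, convex).  For bounded `A`: cells `λ + P` (`λ ∈ L`) not meeting
`frontier A` lie in `A` or in `Aᶜ` (preconnected), so
`|#(A ∩ L) μ(P) - μ(A)| ≤ #{λ : (λ + P) ∩ frontier A ≠ ∅} μ(P)`.  If `frontier D ⊆ ⋃_{j ∈ J} B(x_j, 1/N)`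
with `N = ⌈t⌉`, then `frontier (t • D) ⊆ ⋃ B(t x_j, 1)` and every cell meeting it has its corner in
`B(t x_j, 1 + δ)`; each such ball contains at most `#(L ∩ B(0, 2 + 2δ))` lattice points.
-/
import Fermat.Agent.S14.SIan.Cover

set_option autoImplicit false

open Module Bornology MeasureTheory

namespace Fermat.Agent.S14.SIan

namespace LatticeCount

open Submodule
open scoped Pointwise

section cells

variable {E : Type*} [NormedAddCommGroup E] [NormedSpace ℝ E] {ι : Type*} [Fintype ι]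
  (b : Basis ι ℝ E)

/-- The cell of the lattice point `v`: the points whose `floor` is `v`. -/
def cell (v : E) : Set E := {x | (ZSpan.floor b x : E) = v}

lemma mem_cell_floor (x : E) : x ∈ cell b (ZSpan.floor b x : E) := rfl

lemma mem_cell_iff {v : E} (hv : v ∈ span ℤ (Set.range b)) (x : E) :
    x ∈ cell b v ↔ x - v ∈ ZSpan.fundamentalDomain b := by
  constructor
  · intro h
    have h' : (ZSpan.floor b x : E) = v := h
    rw [← h', ← ZSpan.fract_apply]
    exact ZSpan.fract_mem_fundamentalDomain b x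
  · intro h
    have h1 : (⟨-v, neg_mem hv⟩ : span ℤ (Set.range b)) +ᵥ x ∈ ZSpan.fundamentalDomain b := by
      rw [Submodule.vadd_def]
      simpa [sub_eq_neg_add] using h
    have h2 := (ZSpan.vadd_mem_fundamentalDomain b _ x).mp h1
    have h3 := congrArg (fun y : span ℤ (Set.range b) => (y : E)) h2
    simp only [NegMemClass.coe_neg, neg_inj] at h3
    exact h3.symm

lemma self_mem_cell {v : E} (hv : v ∈ span ℤ (Set.range b)) : v ∈ cell b v :=
  ZSpan.floor_eq_self_of_mem b v hv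

lemma cell_disjoint {v w : E} (h : v ≠ w) : Disjoint (cell b v) (cell b w) := by
  rw [Set.disjoint_left]
  intro x hx hx'
  exact h (hx.symm.trans hx')

lemma norm_sub_le_of_mem_cell {v : E} (hv : v ∈ span ℤ (Set.range b)) {x : E}
    (hx : x ∈ cell b v) : ‖x - v‖ ≤ ∑ i, ‖b i‖ := by
  have h := (mem_cell_iff b hv x).mp hx
  rw [← ZSpan.fract_eq_self.mpr h]
  exact ZSpan.norm_fract_le b _

lemma convex_fundamentalDomain : Convex ℝ (ZSpan.fundamentalDomain b) := by
  intro x hx y hy s t hs ht hst i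
  have hx' := hx i
  have hy' := hy i
  simp only [map_add, map_smul, Finsupp.coe_add, Finsupp.coe_smul, Pi.add_apply, Pi.smul_apply,
    smul_eq_mul]
  exact (convex_Ico (0 : ℝ) 1) hx' hy' hs ht hst

lemma isPreconnected_cell {v : E} (hv : v ∈ span ℤ (Set.range b)) :
    IsPreconnected (cell b v) := by
  have h : cell b v = (fun x => x - v) ⁻¹' ZSpan.fundamentalDomain b := by
    ext x
    exact mem_cell_iff b hv x
  rw [h]
  have hc : Convex ℝ ((fun x => x - v) ⁻¹' ZSpan.fundamentalDomain b) := by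
    intro x hx y hy s t hs ht hst
    simp only [Set.mem_preimage] at hx hy ⊢
    have : s • x + t • y - v = s • (x - v) + t • (y - v) := by
      rw [smul_sub, smul_sub]
      have hv' : v = s • v + t • v := by rw [← add_smul, hst, one_smul]
      nth_rewrite 1 [hv']
      abel
    rw [this]
    exact convex_fundamentalDomain b hx hy hs ht hst
  exact hc.isPreconnected

variable [MeasurableSpace E] [BorelSpace E]

lemma measurableSet_cell {v : E} (hv : v ∈ span ℤ (Set.range b)) :
    MeasurableSet (cell b v) := by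
  have h : cell b v = (fun x => x - v) ⁻¹' ZSpan.fundamentalDomain b := by
    ext x
    exact mem_cell_iff b hv x
  rw [h]
  exact (measurable_sub_const v) (ZSpan.fundamentalDomain_measurableSet b)

lemma measure_cell (μ : Measure E) [μ.IsAddHaarMeasure] {v : E}
    (hv : v ∈ span ℤ (Set.range b)) : μ (cell b v) = μ (ZSpan.fundamentalDomain b) := by
  have h : cell b v = (fun x => x + (-v)) ⁻¹' ZSpan.fundamentalDomain b := by
    ext x
    rw [Set.mem_preimage, ← sub_eq_add_neg]
    exact mem_cell_iff b hv x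
  rw [h, measure_preimage_add_right]

end cells

section sandwich

variable {E : Type*} [NormedAddCommGroup E] [NormedSpace ℝ E] [FiniteDimensional ℝ E]
  {ι : Type*} [Fintype ι] (b : Basis ι ℝ E)

/-- A preconnected set meeting `A` and its complement meets the frontier of `A`. -/
lemma inter_frontier_nonempty_of_isPreconnected {α : Type*} [TopologicalSpace α] {C A : Set α}
    (hC : IsPreconnected C) (h1 : (C ∩ A).Nonempty) (h2 : ¬ C ⊆ A) :
    (C ∩ frontier A).Nonempty := by
  by_contra hne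
  rw [Set.not_nonempty_iff_eq_empty] at hne
  have hsub : C ⊆ interior A ∪ interior Aᶜ := by
    intro x hx
    by_cases hxi : x ∈ interior A
    · exact Or.inl hxi
    · right
      rw [interior_compl]
      intro hxc
      have : x ∈ C ∩ frontier A := ⟨hx, hxc, hxi⟩
      rw [hne] at this
      exact this
  have hdisj : Disjoint (interior A) (interior Aᶜ) :=
    Set.disjoint_of_subset interior_subset interior_subset disjoint_compl_right
  rcases hC.subset_or_subset isOpen_interior isOpen_interior hdisj hsub with h | h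
  · exact h2 (h.trans interior_subset)
  · obtain ⟨x, hxC, hxA⟩ := h1
    exact (interior_subset (h hxC)) hxA

/-- The lattice points whose cell meets the frontier of `A`. -/
def bdSet (A : Set E) : Set E :=
  {v | v ∈ span ℤ (Set.range b) ∧ (cell b v ∩ frontier A).Nonempty}

/-- Lattice points whose cell meets a bounded set form a finite set. -/
lemma finite_meet {A : Set E} (hA : IsBounded A) :
    {v : E | v ∈ span ℤ (Set.range b) ∧ (cell b v ∩ A).Nonempty}.Finite := by
  obtain ⟨R, hR⟩ := hA.subset_closedBall (0 : E)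
  refine (ZSpan.setFinite_inter b
    (Metric.isBounded_closedBall (x := (0 : E)) (r := R + ∑ i, ‖b i‖))).subset ?_
  rintro v ⟨hv, x, hxc, hxA⟩
  refine ⟨?_, hv⟩
  rw [Metric.mem_closedBall, dist_zero_right]
  have h1 := norm_sub_le_of_mem_cell b hv hxc
  have h2 : ‖x‖ ≤ R := by simpa using hR hxA
  calc ‖v‖ = ‖x - (x - v)‖ := by rw [sub_sub_cancel]
    _ ≤ ‖x‖ + ‖x - v‖ := norm_sub_le _ _
    _ ≤ R + ∑ i, ‖b i‖ := add_le_add h2 h1

lemma finite_bdSet {A : Set E} (hA : IsBounded A) : (bdSet b A).Finite :=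
  finite_meet b (hA.closure.subset frontier_subset_closure)

variable [MeasurableSpace E] [BorelSpace E]

/-- **The counting sandwich**: for a bounded measurable set `A`, the number of lattice points in
`A` times the measure of the fundamental domain differs from the measure of `A` by at most the
number of cells meeting the frontier of `A` (times the measure of the fundamental domain). -/
lemma abs_card_mul_sub_le (μ : Measure E) [μ.IsAddHaarMeasure] {A : Set E} (hA : IsBounded A) :
    |(Nat.card (A ∩ (span ℤ (Set.range b) : Set E) : Set E) : ℝ) *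
        μ.real (ZSpan.fundamentalDomain b) - μ.real A| ≤
      ((bdSet b A).ncard : ℝ) * μ.real (ZSpan.fundamentalDomain b) := by
  classical
  set P := ZSpan.fundamentalDomain b with hP
  have hPfin : μ P ≠ ⊤ := (ZSpan.fundamentalDomain_isBounded b).measure_lt_top.ne
  have hAfin : μ A ≠ ⊤ := hA.measure_lt_top.ne
  set Fm : Finset E := (finite_meet b hA).toFinset with hFm
  have hmemFm : ∀ v, v ∈ Fm ↔ v ∈ span ℤ (Set.range b) ∧ (cell b v ∩ A).Nonempty := by
    intro v; rw [hFm, Set.Finite.mem_toFinset]; rfl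
  set Fi : Finset E := Fm.filter (fun v => cell b v ⊆ A) with hFi
  set FA : Finset E := Fm.filter (fun v => v ∈ A) with hFA
  -- the lattice points of `A`
  have hFAset : (A ∩ (span ℤ (Set.range b) : Set E) : Set E) = ↑FA := by
    ext v
    simp only [Set.mem_inter_iff, SetLike.mem_coe, hFA, Finset.coe_filter, Set.mem_ofPred_eq, hmemFm]
    constructor
    · rintro ⟨hvA, hv⟩
      exact ⟨⟨hv, v, self_mem_cell b hv, hvA⟩, hvA⟩
    · rintro ⟨⟨hv, -⟩, hvA⟩
      exact ⟨hvA, hv⟩
  have hcardA : Nat.card (A ∩ (span ℤ (Set.range b) : Set E) : Set E) = FA.card := by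
    rw [hFAset, Nat.card_coe_set_eq, Set.ncard_coe_finset]
  -- inclusions of the finite sets
  have hFiFA : Fi ⊆ FA := by
    intro v hv
    rw [hFi, Finset.mem_filter] at hv
    rw [hFA, Finset.mem_filter]
    exact ⟨hv.1, hv.2 (self_mem_cell b ((hmemFm v).mp hv.1).1)⟩
  have hFAFm : FA ⊆ Fm := Finset.filter_subset _ _
  have hFiFm : Fi ⊆ Fm := Finset.filter_subset _ _
  have hbd : ((Fm \ Fi : Finset E) : Set E) ⊆ bdSet b A := by
    intro v hv
    rw [Finset.mem_coe, Finset.mem_sdiff, hFi, Finset.mem_filter, not_and] at hv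
    obtain ⟨hvm, hvn⟩ := hv
    obtain ⟨hvL, hvne⟩ := (hmemFm v).mp hvm
    exact ⟨hvL, inter_frontier_nonempty_of_isPreconnected (isPreconnected_cell b hvL) hvne
      (hvn hvm)⟩
  have hcard_bd : (Fm.card : ℝ) - Fi.card ≤ (bdSet b A).ncard := by
    have h1 : (Fm \ Fi).card ≤ (bdSet b A).ncard := by
      rw [← Set.ncard_coe_finset]
      exact Set.ncard_le_ncard hbd (finite_bdSet b hA)
    have h2 : (Fm \ Fi).card = Fm.card - Fi.card := Finset.card_sdiff_of_subset hFiFm
    have h3 : Fi.card ≤ Fm.card := Finset.card_le_card hFiFm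
    have h4 : ((Fm.card - Fi.card : ℕ) : ℝ) = (Fm.card : ℝ) - Fi.card := Nat.cast_sub h3
    rw [← h4, ← h2]
    exact_mod_cast h1
  -- measure inequalities
  have hupper : μ.real A ≤ Fm.card * μ.real P := by
    have hcov : A ⊆ ⋃ v ∈ Fm, cell b v := by
      intro x hx
      simp only [Set.mem_iUnion, exists_prop]
      refine ⟨(ZSpan.floor b x : E), ?_, mem_cell_floor b x⟩
      rw [hmemFm]
      exact ⟨(ZSpan.floor b x).2, x, mem_cell_floor b x, hx⟩
    have h1 : μ A ≤ ∑ v ∈ Fm, μ (cell b v) :=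
      (measure_mono hcov).trans (measure_biUnion_finset_le _ _)
    have h2 : ∑ v ∈ Fm, μ (cell b v) = Fm.card * μ P := by
      rw [Finset.sum_congr rfl fun v hv => measure_cell b μ ((hmemFm v).mp hv).1,
        Finset.sum_const, nsmul_eq_mul]
    rw [h2] at h1
    have h3 := ENNReal.toReal_mono (ENNReal.mul_ne_top (ENNReal.natCast_ne_top _) hPfin) h1
    rwa [ENNReal.toReal_mul, ENNReal.toReal_natCast] at h3
  have hlower : Fi.card * μ.real P ≤ μ.real A := by
    have hsub : ⋃ v ∈ Fi, cell b v ⊆ A := by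
      intro x hx
      simp only [Set.mem_iUnion, exists_prop] at hx
      obtain ⟨v, hv, hxv⟩ := hx
      rw [hFi, Finset.mem_filter] at hv
      exact hv.2 hxv
    have hdisj : Set.PairwiseDisjoint (↑Fi : Set E) (cell b) := fun v _ w _ hvw =>
      cell_disjoint b hvw
    have hmeas : ∀ v ∈ Fi, MeasurableSet (cell b v) := fun v hv =>
      measurableSet_cell b ((hmemFm v).mp (hFiFm hv)).1
    have h1 : μ (⋃ v ∈ Fi, cell b v) = Fi.card * μ P := by
      rw [measure_biUnion_finset hdisj hmeas,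
        Finset.sum_congr rfl fun v hv => measure_cell b μ ((hmemFm v).mp (hFiFm hv)).1,
        Finset.sum_const, nsmul_eq_mul]
    have h2 : (Fi.card : ENNReal) * μ P ≤ μ A := h1 ▸ measure_mono hsub
    have h3 := ENNReal.toReal_mono hAfin h2
    rwa [ENNReal.toReal_mul, ENNReal.toReal_natCast] at h3
  have hm0 : 0 ≤ μ.real P := measureReal_nonneg
  have hn1 : (Fi.card : ℝ) ≤ FA.card := by exact_mod_cast Finset.card_le_card hFiFA
  have hn2 : (FA.card : ℝ) ≤ Fm.card := by exact_mod_cast Finset.card_le_card hFAFm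
  rw [hcardA, abs_le]
  have e1 : (Fm.card : ℝ) * μ.real P - Fi.card * μ.real P ≤ (bdSet b A).ncard * μ.real P := by
    rw [← sub_mul]
    exact mul_le_mul_of_nonneg_right hcard_bd hm0
  have e2 : (Fi.card : ℝ) * μ.real P ≤ FA.card * μ.real P := mul_le_mul_of_nonneg_right hn1 hm0
  have e3 : (FA.card : ℝ) * μ.real P ≤ Fm.card * μ.real P := mul_le_mul_of_nonneg_right hn2 hm0
  constructor <;> linarith

end sandwich

section boundary

variable {E : Type*} [NormedAddCommGroup E] [NormedSpace ℝ E]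
  {ι : Type*} [Fintype ι] (b : Basis ι ℝ E)

lemma frontier_smul_set {t : ℝ} (ht : t ≠ 0) (D : Set E) :
    frontier (t • D) = t • frontier D := by
  have := (Homeomorph.smulOfNeZero t ht).image_frontier D
  simpa [Set.image_smul] using this.symm

variable [FiniteDimensional ℝ E]

lemma finite_lattice_ball (w : E) (r : ℝ) :
    ((span ℤ (Set.range b) : Set E) ∩ Metric.closedBall w r).Finite := by
  have := ZSpan.setFinite_inter b (Metric.isBounded_closedBall (x := w) (r := r))
  rwa [Set.inter_comm] at this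

/-- The number of lattice points in a ball of radius `r` is bounded independently of the
centre. -/
lemma ncard_lattice_ball_le (w : E) (r : ℝ) :
    ((span ℤ (Set.range b) : Set E) ∩ Metric.closedBall w r).ncard ≤
      ((span ℤ (Set.range b) : Set E) ∩ Metric.closedBall (0 : E) (2 * r)).ncard := by
  classical
  by_cases hne : ((span ℤ (Set.range b) : Set E) ∩ Metric.closedBall w r).Nonempty
  · obtain ⟨v0, hv0L, hv0b⟩ := hne
    refine Set.ncard_le_ncard_of_injOn (fun v => v - v0) ?_ ?_ (finite_lattice_ball b 0 (2 * r))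
    · rintro v ⟨hvL, hvb⟩
      refine ⟨?_, ?_⟩
      · show v - v0 ∈ span ℤ (Set.range b)
        exact sub_mem hvL hv0L
      rw [Metric.mem_closedBall, dist_zero_right]
      rw [Metric.mem_closedBall, dist_eq_norm] at hvb hv0b
      calc ‖v - v0‖ = ‖(v - w) - (v0 - w)‖ := by rw [sub_sub_sub_cancel_right]
        _ ≤ ‖v - w‖ + ‖v0 - w‖ := norm_sub_le _ _
        _ ≤ 2 * r := by linarith
    · intro v _ v' _ h
      exact sub_left_injective h
  · rw [Set.not_nonempty_iff_eq_empty] at hne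
    rw [hne, Set.ncard_empty]
    exact Nat.zero_le _

/-- Covering count: if `frontier D` is covered by `T.card` balls of radius `1/N` and `t ≤ N`,
then the boundary cells of `t • D` are few. -/
lemma ncard_bdSet_smul_le {D : Set E} {t : ℝ} (ht : 0 < t) {N : ℕ} (hN : 0 < N) (htN : t ≤ N)
    (T : Finset E) (hT : frontier D ⊆ ⋃ x ∈ T, Metric.closedBall x (1 / (N : ℝ))) :
    (bdSet b (t • D)).ncard ≤ T.card *
      ((span ℤ (Set.range b) : Set E) ∩
        Metric.closedBall (0 : E) (2 * (1 + ∑ i, ‖b i‖))).ncard := by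
  classical
  set δ : ℝ := ∑ i, ‖b i‖ with hδ
  set M : ℕ := ((span ℤ (Set.range b) : Set E) ∩
        Metric.closedBall (0 : E) (2 * (1 + δ))).ncard with hM
  have hsub : bdSet b (t • D) ⊆
      ⋃ x ∈ T, ((span ℤ (Set.range b) : Set E) ∩ Metric.closedBall (t • x) (1 + δ)) := by
    rintro v ⟨hvL, y, hyc, hyf⟩
    rw [frontier_smul_set ht.ne' D] at hyf
    obtain ⟨z, hzf, rfl⟩ := hyf
    have hz := hT hzf
    simp only [Set.mem_iUnion, exists_prop] at hz ⊢
    obtain ⟨x, hxT, hzx⟩ := hz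
    refine ⟨x, hxT, hvL, ?_⟩
    rw [Metric.mem_closedBall, dist_eq_norm] at hzx ⊢
    have h1 : ‖t • z - v‖ ≤ δ := norm_sub_le_of_mem_cell b hvL hyc
    have hNpos : (0 : ℝ) < N := by exact_mod_cast hN
    have h2 : ‖t • z - t • x‖ ≤ 1 := by
      rw [← smul_sub, norm_smul, Real.norm_of_nonneg ht.le]
      calc t * ‖z - x‖ ≤ (N : ℝ) * (1 / (N : ℝ)) :=
            mul_le_mul htN hzx (norm_nonneg _) hNpos.le
        _ = 1 := by field_simp
    calc ‖v - t • x‖ = ‖(t • z - t • x) - (t • z - v)‖ := by rw [sub_sub_sub_cancel_left]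
      _ ≤ ‖t • z - t • x‖ + ‖t • z - v‖ := norm_sub_le _ _
      _ ≤ 1 + δ := add_le_add h2 h1
  calc (bdSet b (t • D)).ncard
      ≤ (⋃ x ∈ T, ((span ℤ (Set.range b) : Set E) ∩ Metric.closedBall (t • x) (1 + δ))).ncard := by
        refine Set.ncard_le_ncard hsub ?_
        exact Set.Finite.biUnion T.finite_toSet fun x _ => finite_lattice_ball b _ _
    _ ≤ ∑ x ∈ T, ((span ℤ (Set.range b) : Set E) ∩ Metric.closedBall (t • x) (1 + δ)).ncard :=
        Finset.set_ncard_biUnion_le _ _
    _ ≤ ∑ _x ∈ T, M := Finset.sum_le_sum fun x _ => ncard_lattice_ball_le b _ _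
    _ = T.card * M := by rw [Finset.sum_const, smul_eq_mul]

end boundary

section assembly

variable {E : Type*} [NormedAddCommGroup E] [NormedSpace ℝ E]

lemma smul_cone_eq {X : Set E} (hX : ∀ ⦃x⦄ ⦃r : ℝ⦄, x ∈ X → 0 < r → r • x ∈ X)
    {F : E → ℝ} {d : ℕ} (h₁ : ∀ x ⦃r : ℝ⦄, 0 ≤ r → F (r • x) = r ^ d * F x) {t : ℝ}
    (ht : 0 < t) :
    t • {x ∈ X | F x ≤ 1} = {x ∈ X | F x ≤ t ^ d} := by
  ext x
  simp_rw [Set.mem_smul_set_iff_inv_smul_mem₀ ht.ne', Set.mem_ofPred_eq, h₁ _
    (inv_pos_of_pos ht).le, inv_pow, inv_mul_le_iff₀ (pow_pos ht _), mul_one,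
    and_congr_left_iff]
  exact fun _ ↦ ⟨fun h ↦ (smul_inv_smul₀ ht.ne' x) ▸ hX h ht, fun h ↦ hX h (inv_pos_of_pos ht)⟩

variable [FiniteDimensional ℝ E] [MeasurableSpace E] [BorelSpace E]
  {ι : Type*} [Fintype ι] (b : Basis ι ℝ E)

/-- The main estimate for the lattice spanned by a basis. -/
lemma card_cone_basis_le {X : Set E} {F : E → ℝ}
    (hX : ∀ ⦃x⦄ ⦃r : ℝ⦄, x ∈ X → 0 < r → r • x ∈ X)
    (h₁ : ∀ x ⦃r : ℝ⦄, 0 ≤ r → F (r • x) = r ^ finrank ℝ E * F x)
    (h₂ : IsBounded {x ∈ X | F x ≤ 1})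
    (h₄ : CoverDim (frontier {x ∈ X | F x ≤ 1}) (finrank ℝ E - 1))
    (hd : 0 < finrank ℝ E) :
    ∃ κ C : ℝ, ∀ c : ℝ, 1 ≤ c →
      |(Nat.card ({x ∈ X | F x ≤ c} ∩ (span ℤ (Set.range b) : Set E) : Set E) : ℝ) - κ * c| ≤
        C * c ^ (1 - 1 / (finrank ℝ E : ℝ)) := by
  classical
  set d := finrank ℝ E with hdd
  set D : Set E := {x ∈ X | F x ≤ 1} with hD
  let μ : Measure E := Measure.addHaar
  set P := ZSpan.fundamentalDomain b with hP
  have hPpos : 0 < μ.real P := by
    have h1 : μ P ≠ 0 := ZSpan.measure_fundamentalDomain_ne_zero b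
    have h2 : μ P ≠ ⊤ := (ZSpan.fundamentalDomain_isBounded b).measure_lt_top.ne
    exact ENNReal.toReal_pos h1 h2
  obtain ⟨A0, hA0⟩ := h₄
  set M : ℕ := ((span ℤ (Set.range b) : Set E) ∩
        Metric.closedBall (0 : E) (2 * (1 + ∑ i, ‖b i‖))).ncard with hM
  refine ⟨μ.real D / μ.real P, max A0 0 * 2 ^ (d - 1) * M, fun c hc => ?_⟩
  have hc0 : 0 < c := lt_of_lt_of_le one_pos hc
  have hdne : d ≠ 0 := hd.ne'
  set t : ℝ := c ^ ((d : ℝ)⁻¹) with ht
  have ht1 : 1 ≤ t := Real.one_le_rpow hc (by positivity)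
  have ht0 : 0 < t := lt_of_lt_of_le one_pos ht1
  have htd : t ^ d = c := Real.rpow_inv_natCast_pow hc0.le hdne
  have htd1 : t ^ (d - 1) = c ^ (1 - 1 / (d : ℝ)) := by
    rw [ht, ← Real.rpow_natCast, ← Real.rpow_mul hc0.le]
    congr 1
    have hdR : (d : ℝ) ≠ 0 := by exact_mod_cast hdne
    rw [Nat.cast_sub hd, Nat.cast_one]
    field_simp
  have hset : {x ∈ X | F x ≤ c} = t • D := by
    rw [hD, smul_cone_eq hX h₁ ht0, htd]
  have hbdd : IsBounded (t • D) := h₂.smul₀ t
  have hmeas : μ.real (t • D) = c * μ.real D := by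
    rw [Measure.real, Measure.addHaar_smul_of_nonneg μ ht0.le, ENNReal.toReal_mul,
      ENNReal.toReal_ofReal (pow_nonneg ht0.le _), htd]
    rfl
  -- the covering
  set N : ℕ := ⌈t⌉₊ with hN
  have hNpos : 0 < N := Nat.ceil_pos.mpr ht0
  have htN : t ≤ N := Nat.le_ceil t
  have hN2 : (N : ℝ) ≤ 2 * t := by
    have := Nat.ceil_lt_add_one ht0.le
    linarith
  obtain ⟨T, hTcard, hTcov⟩ := hA0 N hNpos
  have hbd := ncard_bdSet_smul_le b ht0 hNpos htN T hTcov
  have hbdR : ((bdSet b (t • D)).ncard : ℝ) ≤ max A0 0 * 2 ^ (d - 1) * M * c ^ (1 - 1 / (d : ℝ)) := by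
    have h1 : ((bdSet b (t • D)).ncard : ℝ) ≤ (T.card : ℝ) * M := by exact_mod_cast hbd
    have h2 : (T.card : ℝ) ≤ max A0 0 * 2 ^ (d - 1) * t ^ (d - 1) := by
      calc (T.card : ℝ) ≤ A0 * (N : ℝ) ^ (d - 1) := hTcard
        _ ≤ max A0 0 * (N : ℝ) ^ (d - 1) :=
            mul_le_mul_of_nonneg_right (le_max_left _ _) (by positivity)
        _ ≤ max A0 0 * (2 * t) ^ (d - 1) :=
            mul_le_mul_of_nonneg_left (pow_le_pow_left₀ (by positivity) hN2 _) (le_max_right _ _)
        _ = max A0 0 * 2 ^ (d - 1) * t ^ (d - 1) := by rw [mul_pow, mul_assoc]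
    calc ((bdSet b (t • D)).ncard : ℝ) ≤ (T.card : ℝ) * M := h1
      _ ≤ (max A0 0 * 2 ^ (d - 1) * t ^ (d - 1)) * M :=
          mul_le_mul_of_nonneg_right h2 (Nat.cast_nonneg _)
      _ = max A0 0 * 2 ^ (d - 1) * M * c ^ (1 - 1 / (d : ℝ)) := by rw [htd1]; ring
  have hsand := abs_card_mul_sub_le b μ hbdd
  rw [hmeas] at hsand
  rw [hset]
  set n : ℝ := (Nat.card (t • D ∩ (span ℤ (Set.range b) : Set E) : Set E) : ℝ) with hn
  have key : |n - μ.real D / μ.real P * c| * μ.real P ≤
      ((bdSet b (t • D)).ncard : ℝ) * μ.real P := by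
    have : (n - μ.real D / μ.real P * c) * μ.real P = n * μ.real P - c * μ.real D := by
      field_simp
    calc |n - μ.real D / μ.real P * c| * μ.real P
        = |n - μ.real D / μ.real P * c| * |μ.real P| := by rw [abs_of_pos hPpos]
      _ = |n * μ.real P - c * μ.real D| := by rw [← abs_mul, this]
      _ ≤ _ := hsand
  exact (le_of_mul_le_mul_right key hPpos).trans hbdR

end assembly

end LatticeCount

theorem card_cone_le_sub_le {E : Type*} [NormedAddCommGroup E] [NormedSpace ℝ E]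
    [FiniteDimensional ℝ E] [MeasurableSpace E] [BorelSpace E]
    (L : Submodule ℤ E) [DiscreteTopology L] [IsZLattice ℝ L]
    {X : Set E} {F : E → ℝ} (hX : ∀ ⦃x⦄ ⦃r : ℝ⦄, x ∈ X → 0 < r → r • x ∈ X)
    (h₁ : ∀ x ⦃r : ℝ⦄, 0 ≤ r → F (r • x) = r ^ finrank ℝ E * F x)
    (h₂ : IsBounded {x ∈ X | F x ≤ 1}) (h₃ : MeasurableSet {x ∈ X | F x ≤ 1})
    (h₄ : CoverDim (frontier {x ∈ X | F x ≤ 1}) (finrank ℝ E - 1)) :
    ∃ κ C : ℝ, ∀ c : ℝ, 1 ≤ c →
      |(Nat.card ({x ∈ X | F x ≤ c} ∩ L : Set E) : ℝ) - κ * c| ≤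
        C * c ^ (1 - 1 / (finrank ℝ E : ℝ)) := by
  classical
  rcases Nat.eq_zero_or_pos (finrank ℝ E) with hd0 | hdpos
  · -- degenerate case: `E` is trivial
    haveI : Subsingleton E := Module.finrank_zero_iff.mp hd0
    refine ⟨0, 1, fun c hc => ?_⟩
    have hcard : Nat.card ({x ∈ X | F x ≤ c} ∩ L : Set E) ≤ 1 :=
      Finite.card_le_one_iff_subsingleton.mpr inferInstance
    have hcardR : (Nat.card ({x ∈ X | F x ≤ c} ∩ L : Set E) : ℝ) ≤ 1 := by exact_mod_cast hcard
    have hnn : (0 : ℝ) ≤ (Nat.card ({x ∈ X | F x ≤ c} ∩ L : Set E) : ℝ) := Nat.cast_nonneg _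
    rw [hd0, Nat.cast_zero, div_zero, sub_zero, Real.rpow_one, zero_mul, sub_zero, one_mul,
      abs_of_nonneg hnn]
    exact hcardR.trans hc
  · have hfree : Module.Free ℤ L := ZLattice.module_free ℝ L
    let b0 := Module.Free.chooseBasis ℤ L
    let b := b0.ofZLatticeBasis ℝ L
    have hspan : Submodule.span ℤ (Set.range b) = L := b0.ofZLatticeBasis_span ℝ L
    have := LatticeCount.card_cone_basis_le b hX h₁ h₂ h₄ hdpos
    rwa [hspan] at this

end Fermat.Agent.S14.SIan
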