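/-
T14 / SI-AN, package P3: the number of integral ideals of norm `≤ x` in an ideal class is
`κ x + O(x^(1 - 1/d))`, `κ > 0` independent of the class.
(Quantitative version of `NumberField.Ideal.tendsto_norm_le_and_mk_eq_div_atTop`; `κ` is identified,
and shown positive and class independent, by uniqueness of limits with that Mathlib theorem.)
-/
import Fermat.Agent.S14.SIan.LatticeCount
import Fermat.Agent.S14.SIan.FrontierCover

set_option autoImplicit false

open NumberField nonZeroDivisors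

namespace Fermat.Agent.S14.SIan

/-- Lipschitz images preserve the covering property. -/
theorem CoverDim.image_lipschitzWith_aux {E F : Type*} [PseudoMetricSpace E] [PseudoMetricSpace F]
    {S : Set E} {m : ℕ} (h : CoverDim S m) {f : E → F} {Kf : NNReal} (hf : LipschitzWith Kf f) :
    CoverDim (f '' S) m := by
  classical
  obtain ⟨A, hA⟩ := h
  set k : ℕ := ⌈(Kf : ℝ)⌉₊ + 1 with hk
  have hk0 : 0 < k := Nat.succ_pos _
  have hKk : (Kf : ℝ) ≤ k := by
    rw [hk]; push_cast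
    exact (Nat.le_ceil _).trans (by linarith)
  refine ⟨A * (k : ℝ) ^ m, fun N hN => ?_⟩
  obtain ⟨T, hT, hST⟩ := hA (k * N) (Nat.mul_pos hk0 hN)
  refine ⟨T.image f, ?_, ?_⟩
  · calc ((T.image f).card : ℝ) ≤ T.card := by exact_mod_cast Finset.card_image_le
      _ ≤ A * ((k * N : ℕ) : ℝ) ^ m := hT
      _ = A * (k : ℝ) ^ m * (N : ℝ) ^ m := by push_cast; rw [mul_pow]; ring
  · rintro _ ⟨x, hx, rfl⟩
    obtain ⟨t, ht, hxt⟩ := Set.mem_iUnion₂.1 (hST hx)
    refine Set.mem_iUnion₂.2 ⟨f t, Finset.mem_image_of_mem f ht, ?_⟩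
    rw [Metric.mem_closedBall] at hxt ⊢
    have hN' : (0 : ℝ) < N := by exact_mod_cast hN
    have hk' : (0 : ℝ) < k := by exact_mod_cast hk0
    calc dist (f x) (f t) ≤ Kf * dist x t := hf.dist_le_mul x t
      _ ≤ k * (1 / ((k * N : ℕ) : ℝ)) := by
          apply mul_le_mul hKk hxt dist_nonneg hk'.le
      _ = 1 / N := by
          push_cast
          field_simp

end Fermat.Agent.S14.SIan

noncomputable section

open Ideal
open scoped Real
open Filter InfinitePlace mixedEmbedding euclidean fundamentalCone Submodule Topology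
open NumberField.Units

namespace Fermat.Agent.S14.SIan

variable (K : Type*) [Field K] [NumberField K]

section aux

variable {C : ClassGroup (𝓞 K)} {J : (Ideal (𝓞 K))⁰} {s : ℝ}

theorem idealCount_aux₁ (hJ : ClassGroup.mk0 J = C⁻¹) :
    Nat.card {I : (Ideal (𝓞 K))⁰ // absNorm (I : Ideal (𝓞 K)) ≤ s ∧ ClassGroup.mk0 I = C}
      = Nat.card {I : (Ideal (𝓞 K))⁰ // (J : Ideal (𝓞 K)) ∣ I ∧ IsPrincipal (I : Ideal (𝓞 K)) ∧
        absNorm (I : Ideal (𝓞 K)) ≤ s * absNorm (J : Ideal (𝓞 K))} := by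
  simp_rw [← nonZeroDivisors_dvd_iff_dvd_coe]
  refine Nat.card_congr ?_
  refine ((Equiv.dvd J).subtypeEquiv fun I ↦ ?_).trans
    (Equiv.subtypeSubtypeEquivSubtypeInter (fun I : (Ideal (𝓞 K))⁰ ↦ J ∣ I) _)
  rw [← ClassGroup.mk0_eq_one_iff (SetLike.coe_mem _)]
  simp_rw [Equiv.dvd_apply, Submonoid.coe_mul, ← Submonoid.mul_def, _root_.map_mul, hJ,
    inv_mul_eq_one, Nat.cast_mul, mul_comm s, eq_comm, and_comm, and_congr_left_iff]
  exact fun _ ↦
    (mul_le_mul_iff_of_pos_left (Nat.cast_pos.mpr (absNorm_pos_of_nonZeroDivisors J))).symm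

open scoped Classical in
def idealCount_aux₂ :
    ↑({x | x ∈ (toMixed K) ⁻¹' fundamentalCone K ∧ mixedEmbedding.norm ((toMixed K) x) ≤ s} ∩
      (ZLattice.comap ℝ (idealLattice K ((FractionalIdeal.mk0 K) J)) (toMixed K).toLinearMap))
        ≃ {a : idealSet K J // mixedEmbedding.norm (a : mixedSpace K) ≤ s} := by
  rw [ZLattice.coe_comap]
  refine (((toMixed K).toEquiv.image _).trans (Equiv.subtypeEquivProp ?_)).trans
    (Equiv.subtypeSubtypeEquivSubtypeInter _ (mixedEmbedding.norm · ≤ s)).symm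
  ext
  simp_rw [mem_idealSet, Set.mem_image, Set.mem_inter_iff, Set.mem_preimage, SetLike.mem_coe,
    mem_idealLattice, FractionalIdeal.coe_mk0]
  constructor
  · rintro ⟨_, ⟨⟨hx₁, hx₂⟩, _, ⟨x, hx₃, rfl⟩, h⟩, rfl⟩
    exact ⟨⟨hx₁, x, hx₃, h⟩, hx₂⟩
  · rintro ⟨⟨hx₁, ⟨x, hx₂, rfl⟩⟩, hx₃⟩
    exact ⟨(toMixed K).symm (mixedEmbedding K x), ⟨⟨hx₁, hx₃⟩, ⟨(x : K), by simp [hx₂], rfl⟩⟩, rfl⟩

end aux

open scoped Classical in
theorem coverDim_frontier_preimage :
    CoverDim (frontier {x | x ∈ toMixed K ⁻¹' fundamentalCone K ∧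
      mixedEmbedding.norm (toMixed K x) ≤ 1})
      (Module.finrank ℝ (euclidean.mixedSpace K) - 1) := by
  have h₁ : {x | x ∈ toMixed K ⁻¹' fundamentalCone K ∧ mixedEmbedding.norm (toMixed K x) ≤ 1} =
      toMixed K ⁻¹' {x | x ∈ fundamentalCone K ∧ mixedEmbedding.norm x ≤ 1} := rfl
  have h₂ : {x | x ∈ fundamentalCone K ∧ mixedEmbedding.norm x ≤ 1} = normLeOne K := by ext; simp
  rw [h₁, h₂, ← (toMixed K).coe_toHomeomorph, ← Homeomorph.preimage_frontier,
    (toMixed K).coe_toHomeomorph, euclidean.finrank]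
  have : (toMixed K) ⁻¹' frontier (normLeOne K) = (toMixed K).symm '' frontier (normLeOne K) := by
    ext x
    constructor
    · intro hx
      exact ⟨toMixed K x, hx, by simp⟩
    · rintro ⟨y, hy, rfl⟩
      simpa using hy
  rw [this]
  exact (coverDim_frontier_normLeOne K).image_lipschitzWith_aux (toMixed K).symm.lipschitz

theorem exists_card_class_sub_le (c : ClassGroup (𝓞 K)) :
    ∃ κ C : ℝ, ∀ x : ℝ, 1 ≤ x →
      |(Nat.card {I : (Ideal (𝓞 K))⁰ // absNorm (I : Ideal (𝓞 K)) ≤ x ∧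
          ClassGroup.mk0 I = c} : ℝ) - κ * x| ≤ C * x ^ (1 - 1 / (Module.finrank ℚ K : ℝ)) := by
  classical
  obtain ⟨J, hJ⟩ := ClassGroup.mk0_surjective c⁻¹
  obtain ⟨κ', C', h⟩ := card_cone_le_sub_le
    (ZLattice.comap ℝ (mixedEmbedding.idealLattice K (FractionalIdeal.mk0 K J))
      (toMixed K).toLinearMap)
    (F := fun x ↦ mixedEmbedding.norm (toMixed K x)) (X := (toMixed K) ⁻¹' (fundamentalCone K))
    (fun _ _ _ h ↦ by rwa [Set.mem_preimage, map_smul, smul_mem_iff_mem h.ne'])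
    (fun _ _ h ↦ by rw [map_smul, mixedEmbedding.norm_smul, euclidean.finrank, abs_of_nonneg h])
    ((toMixed K).antilipschitz.isBounded_preimage (isBounded_normLeOne K))
    ((toMixed K).continuous.measurable (measurableSet_normLeOne K))
    (coverDim_frontier_preimage K)
  rw [euclidean.finrank] at h
  set w : ℝ := (torsionOrder K : ℝ) with hw
  have hw0 : 0 < w := by
    rw [hw]; exact_mod_cast Nat.pos_of_ne_zero (torsionOrder_ne_zero K)
  set nJ : ℝ := (absNorm (J : Ideal (𝓞 K)) : ℝ) with hnJ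
  have hnJ1 : 1 ≤ nJ := by
    rw [hnJ]; exact_mod_cast absNorm_pos_of_nonZeroDivisors J
  set e : ℝ := 1 - 1 / (Module.finrank ℚ K : ℝ) with he
  refine ⟨κ' * nJ / w, C' * nJ ^ e / w, fun x hx => ?_⟩
  have hy : 1 ≤ x * nJ := by nlinarith
  have hcount : (Nat.card {I : (Ideal (𝓞 K))⁰ // absNorm (I : Ideal (𝓞 K)) ≤ x ∧
          ClassGroup.mk0 I = c} : ℝ) * w =
      (Nat.card ↑({z | z ∈ (toMixed K) ⁻¹' fundamentalCone K ∧
          mixedEmbedding.norm ((toMixed K) z) ≤ x * nJ} ∩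
        (ZLattice.comap ℝ (idealLattice K ((FractionalIdeal.mk0 K) J))
          (toMixed K).toLinearMap) : Set (euclidean.mixedSpace K)) : ℝ) := by
    rw [idealCount_aux₁ K hJ, Nat.card_congr (idealCount_aux₂ K),
      ← card_isPrincipal_dvd_norm_le, Nat.cast_mul]
  have h' := h (x * nJ) hy
  rw [← hcount] at h'
  have hx0 : 0 ≤ x := by linarith
  have hnJ0 : 0 ≤ nJ := by linarith
  rw [Real.mul_rpow hx0 hnJ0] at h'
  set N : ℝ := (Nat.card {I : (Ideal (𝓞 K))⁰ // absNorm (I : Ideal (𝓞 K)) ≤ x ∧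
          ClassGroup.mk0 I = c} : ℝ) with hN
  have key : N - κ' * nJ / w * x = (N * w - κ' * (x * nJ)) / w := by
    field_simp
  rw [key, abs_div, abs_of_pos hw0, div_le_iff₀ hw0]
  calc |N * w - κ' * (x * nJ)| ≤ C' * (x ^ e * nJ ^ e) := h'
    _ = C' * nJ ^ e / w * x ^ e * w := by field_simp

/-- The constant of Mathlib's ideal counting asymptotics. -/
def idealKappa : ℝ :=
  (2 ^ nrRealPlaces K * (2 * π) ^ nrComplexPlaces K * regulator K) /
    (torsionOrder K * Real.sqrt |discr K|)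

theorem idealKappa_pos : 0 < idealKappa K := by
  unfold idealKappa
  have h1 : (0 : ℝ) < torsionOrder K := by
    exact_mod_cast Nat.pos_of_ne_zero (torsionOrder_ne_zero K)
  have h2 : (0 : ℝ) < Real.sqrt |(discr K : ℝ)| := by
    apply Real.sqrt_pos.2
    exact abs_pos.2 (by exact_mod_cast discr_ne_zero K)
  have h3 := regulator_pos K
  positivity

theorem kappa_eq_of_bound (c : ClassGroup (𝓞 K)) (κ C : ℝ)
    (h : ∀ x : ℝ, 1 ≤ x →
      |(Nat.card {I : (Ideal (𝓞 K))⁰ // absNorm (I : Ideal (𝓞 K)) ≤ x ∧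
          ClassGroup.mk0 I = c} : ℝ) - κ * x| ≤ C * x ^ (1 - 1 / (Module.finrank ℚ K : ℝ))) :
    κ = idealKappa K := by
  have hd : (0 : ℝ) < 1 / (Module.finrank ℚ K : ℝ) := by
    have : 0 < Module.finrank ℚ K := Module.finrank_pos
    positivity
  have hlim := NumberField.Ideal.tendsto_norm_le_and_mk_eq_div_atTop K c
  have hlim2 : Tendsto (fun s : ℝ ↦
      (Nat.card {I : (Ideal (𝓞 K))⁰ //
        absNorm (I : Ideal (𝓞 K)) ≤ s ∧ ClassGroup.mk0 I = c} : ℝ) / s) atTop (𝓝 κ) := by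
    rw [tendsto_iff_dist_tendsto_zero]
    have h0 : Tendsto (fun x : ℝ => C * x ^ (-(1 / (Module.finrank ℚ K : ℝ)))) atTop (𝓝 0) := by
      simpa using (tendsto_rpow_neg_atTop hd).const_mul C
    refine squeeze_zero' (Eventually.of_forall fun _ => dist_nonneg) ?_ h0
    filter_upwards [eventually_ge_atTop (1 : ℝ)] with x hx
    have hx0 : 0 < x := by linarith
    rw [Real.dist_eq]
    have : (Nat.card {I : (Ideal (𝓞 K))⁰ //
        absNorm (I : Ideal (𝓞 K)) ≤ x ∧ ClassGroup.mk0 I = c} : ℝ) / x - κ =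
        ((Nat.card {I : (Ideal (𝓞 K))⁰ //
        absNorm (I : Ideal (𝓞 K)) ≤ x ∧ ClassGroup.mk0 I = c} : ℝ) - κ * x) / x := by
      field_simp
    rw [this, abs_div, abs_of_pos hx0, div_le_iff₀ hx0]
    calc _ ≤ C * x ^ (1 - 1 / (Module.finrank ℚ K : ℝ)) := h x hx
      _ = C * x ^ (-(1 / (Module.finrank ℚ K : ℝ))) * x := by
        rw [sub_eq_add_neg, Real.rpow_add hx0, Real.rpow_one]; ring
  exact tendsto_nhds_unique hlim2 hlim

theorem exists_card_norm_le_sub_le (K : Type*) [Field K] [NumberField K] :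
    ∃ κ C : ℝ, 0 < κ ∧ ∀ (c : ClassGroup (𝓞 K)) (x : ℝ), 1 ≤ x →
      |(Nat.card {I : (Ideal (𝓞 K))⁰ // Ideal.absNorm (I : Ideal (𝓞 K)) ≤ x ∧
          ClassGroup.mk0 I = c} : ℝ) - κ * x| ≤ C * x ^ (1 - 1 / (Module.finrank ℚ K : ℝ)) := by
  choose κf Cf hf using exists_card_class_sub_le K
  have hκ : ∀ c, κf c = idealKappa K := fun c => kappa_eq_of_bound K c (κf c) (Cf c) (hf c)
  refine ⟨idealKappa K, ∑ c, |Cf c|, idealKappa_pos K, fun c x hx => ?_⟩
  have h := hf c x hx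
  rw [hκ c] at h
  refine h.trans ?_
  have hx0 : 0 ≤ x ^ (1 - 1 / (Module.finrank ℚ K : ℝ)) := Real.rpow_nonneg (by linarith) _
  refine mul_le_mul_of_nonneg_right ?_ hx0
  exact (le_abs_self _).trans
    (Finset.single_le_sum (f := fun c => |Cf c|) (fun _ _ => abs_nonneg _) (Finset.mem_univ c))

end Fermat.Agent.S14.SIan
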