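/-
T14 / SI-AN, package P5: partial zeta functions of ideal classes.  From P3 + P4:
`ζ_c(s) = κ ∑ n^(-s) + O(1)` uniformly on `(1,2]`, hence bounded differences, and
`B₂/(s-1) ≤ ζ_K(s) ≤ B₁/(s-1)`.
-/
import Fermat.Agent.S14.SIan.IdealCount
import Fermat.Agent.S14.SIan.AbelBound
import Fermat.Agent.S14_helper57.ClassCount

set_option autoImplicit false

open NumberField nonZeroDivisors

namespace Fermat.Agent.S14.SIan

variable (K : Type*) [Field K] [NumberField K]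

/-- The partial zeta function of the ideal class `c`. -/
noncomputable def classZeta (c : ClassGroup (𝓞 K)) (s : ℝ) : ℝ :=
  ∑' I : {I : (Ideal (𝓞 K))⁰ // ClassGroup.mk0 I = c},
    (Ideal.absNorm (I.1 : Ideal (𝓞 K)) : ℝ) ^ (-s)

open Fermat.Agent.S14_helper57 in
theorem classZeta_eq_tsum_nrm (c : ClassGroup (𝓞 K)) (s : ℝ) :
    classZeta K c s = ∑' I : ClassIdx K c, (nrm K c I : ℝ) ^ (-s) := rfl

theorem absNorm_rpow_nonneg (s : ℝ) (I : (Ideal (𝓞 K))⁰) :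
    0 ≤ (Ideal.absNorm (I : Ideal (𝓞 K)) : ℝ) ^ (-s) :=
  Real.rpow_nonneg (Nat.cast_nonneg _) _

theorem one_le_absNorm (I : (Ideal (𝓞 K))⁰) : (1 : ℝ) ≤ Ideal.absNorm (I : Ideal (𝓞 K)) := by
  have h : Ideal.absNorm (I : Ideal (𝓞 K)) ≠ 0 := by
    rw [Ne, Ideal.absNorm_eq_zero_iff]
    exact mem_nonZeroDivisors_iff_ne_zero.mp I.2
  exact_mod_cast Nat.one_le_iff_ne_zero.mpr h

open Fermat.Agent.S14_helper57 in
theorem summable_fiber_absNorm_rpow {s : ℝ} (hs : 1 < s) (hs2 : s ≤ 2)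
    (c : ClassGroup (𝓞 K)) :
    Summable fun I : {I : (Ideal (𝓞 K))⁰ // ClassGroup.mk0 I = c} =>
      (Ideal.absNorm (I.1 : Ideal (𝓞 K)) : ℝ) ^ (-s) := by
  obtain ⟨κ, B, _, _, h⟩ := exists_classZeta_bound K
  exact (h c s hs hs2).1

theorem summable_absNorm_rpow_of_le {s : ℝ} (hs : 1 < s) (hs2 : s ≤ 2) :
    Summable fun I : (Ideal (𝓞 K))⁰ => (Ideal.absNorm (I : Ideal (𝓞 K)) : ℝ) ^ (-s) := by
  rw [← (Equiv.sigmaFiberEquiv
    (ClassGroup.mk0 : (Ideal (𝓞 K))⁰ → ClassGroup (𝓞 K))).summable_iff,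
    summable_sigma_of_nonneg]
  · exact ⟨fun c => summable_fiber_absNorm_rpow K hs hs2 c, Summable.of_finite⟩
  · intro p
    exact absNorm_rpow_nonneg K s _

theorem summable_absNorm_rpow {s : ℝ} (hs : 1 < s) :
    Summable fun I : (Ideal (𝓞 K))⁰ => (Ideal.absNorm (I : Ideal (𝓞 K)) : ℝ) ^ (-s) := by
  rcases le_or_gt s 2 with hs2 | hs2
  · exact summable_absNorm_rpow_of_le K hs hs2
  · refine Summable.of_nonneg_of_le (absNorm_rpow_nonneg K s) (fun I => ?_)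
      (summable_absNorm_rpow_of_le K (by norm_num : (1 : ℝ) < 2) le_rfl)
    exact Real.rpow_le_rpow_of_exponent_le (one_le_absNorm K I) (by linarith)

theorem classZeta_nonneg (c : ClassGroup (𝓞 K)) (s : ℝ) : 0 ≤ classZeta K c s :=
  tsum_nonneg fun I => absNorm_rpow_nonneg K s I.1

/-- The Dedekind zeta sum is the sum of the partial zeta functions. -/
theorem tsum_absNorm_rpow_eq_sum_classZeta {s : ℝ} (hs : 1 < s) (hs2 : s ≤ 2) :
    ∑' I : (Ideal (𝓞 K))⁰, (Ideal.absNorm (I : Ideal (𝓞 K)) : ℝ) ^ (-s) =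
      ∑ c : ClassGroup (𝓞 K), classZeta K c s := by
  have hsum := summable_absNorm_rpow K hs
  have h2 : Summable ((fun I : (Ideal (𝓞 K))⁰ =>
      (Ideal.absNorm (I : Ideal (𝓞 K)) : ℝ) ^ (-s)) ∘
        (Equiv.sigmaFiberEquiv (ClassGroup.mk0 : (Ideal (𝓞 K))⁰ → ClassGroup (𝓞 K)))) :=
    (Equiv.sigmaFiberEquiv _).summable_iff.mpr hsum
  calc ∑' I : (Ideal (𝓞 K))⁰, (Ideal.absNorm (I : Ideal (𝓞 K)) : ℝ) ^ (-s)
      = ∑' p, ((fun I : (Ideal (𝓞 K))⁰ => (Ideal.absNorm (I : Ideal (𝓞 K)) : ℝ) ^ (-s)) ∘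
          (Equiv.sigmaFiberEquiv
            (ClassGroup.mk0 : (Ideal (𝓞 K))⁰ → ClassGroup (𝓞 K)))) p :=
        ((Equiv.sigmaFiberEquiv _).tsum_eq _).symm
    _ = ∑' c : ClassGroup (𝓞 K), classZeta K c s :=
        Summable.tsum_sigma' (fun c => summable_fiber_absNorm_rpow K hs hs2 c) h2
    _ = ∑ c : ClassGroup (𝓞 K), classZeta K c s := tsum_fintype _

open Fermat.Agent.S14_helper57 in
theorem classZeta_sub_le :
    ∃ B : ℝ, ∀ s : ℝ, 1 < s → s ≤ 2 → ∀ c c' : ClassGroup (𝓞 K),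
      |classZeta K c s - classZeta K c' s| ≤ B := by
  obtain ⟨κ, B, _, _, h⟩ := exists_classZeta_bound K
  refine ⟨2 * B, fun s hs hs2 c c' => ?_⟩
  have h1 := (h c s hs hs2).2
  have h2 := (h c' s hs hs2).2
  rw [← classZeta_eq_tsum_nrm] at h1 h2
  rw [abs_le] at h1 h2 ⊢
  constructor <;> linarith [h1.1, h1.2, h2.1, h2.2]

open Fermat.Agent.S14_helper57 in
theorem zeta_le :
    ∃ B₁ : ℝ, 0 < B₁ ∧ ∀ s : ℝ, 1 < s → s ≤ 2 →
      ∑' I : (Ideal (𝓞 K))⁰, (Ideal.absNorm (I : Ideal (𝓞 K)) : ℝ) ^ (-s) ≤ B₁ / (s - 1) := by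
  obtain ⟨κ, B, hκ, hB, h⟩ := exists_classZeta_bound K
  set hK : ℝ := (Fintype.card (ClassGroup (𝓞 K)) : ℝ) with hhK
  have hK0 : 0 ≤ hK := Nat.cast_nonneg _
  refine ⟨hK * (2 * κ + B) + 1, by positivity, fun s hs hs2 => ?_⟩
  have hs1 : 0 < s - 1 := by linarith
  rw [tsum_absNorm_rpow_eq_sum_classZeta K hs hs2, le_div_iff₀ hs1]
  have hZ := tsum_zterm_le hs
  have hZ0 : 0 ≤ ∑' n : ℕ, ((n : ℝ) + 1) ^ (-s) := tsum_nonneg (zterm_nonneg s)
  have hc : ∀ c ∈ (Finset.univ : Finset (ClassGroup (𝓞 K))),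
      classZeta K c s ≤ κ * (1 + 1 / (s - 1)) + B := by
    intro c _
    have h1 := (h c s hs hs2).2
    rw [← classZeta_eq_tsum_nrm, abs_le] at h1
    have h2 : κ * ∑' n : ℕ, ((n : ℝ) + 1) ^ (-s) ≤ κ * (1 + 1 / (s - 1)) :=
      mul_le_mul_of_nonneg_left hZ hκ.le
    linarith [h1.2]
  have h3 := Finset.sum_le_sum hc
  rw [Finset.sum_const, Finset.card_univ, nsmul_eq_mul] at h3
  have h4 : (κ * (1 + 1 / (s - 1)) + B) * (s - 1) = κ * (s - 1) + κ + B * (s - 1) := by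
    field_simp
  have h5 : (κ * (1 + 1 / (s - 1)) + B) * (s - 1) ≤ 2 * κ + B := by
    rw [h4]
    nlinarith
  have h6 : 0 ≤ κ * (1 + 1 / (s - 1)) + B := by positivity
  calc (∑ c : ClassGroup (𝓞 K), classZeta K c s) * (s - 1)
      ≤ (hK * (κ * (1 + 1 / (s - 1)) + B)) * (s - 1) :=
        mul_le_mul_of_nonneg_right h3 hs1.le
    _ = hK * ((κ * (1 + 1 / (s - 1)) + B) * (s - 1)) := by ring
    _ ≤ hK * (2 * κ + B) := mul_le_mul_of_nonneg_left h5 hK0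
    _ ≤ hK * (2 * κ + B) + 1 := by linarith

open Fermat.Agent.S14_helper57 in
theorem zeta_ge :
    ∃ B₂ : ℝ, 0 < B₂ ∧ ∀ s : ℝ, 1 < s → s ≤ 2 →
      B₂ / (s - 1) ≤ ∑' I : (Ideal (𝓞 K))⁰, (Ideal.absNorm (I : Ideal (𝓞 K)) : ℝ) ^ (-s) := by
  obtain ⟨κ, B, hκ, hB, h⟩ := exists_classZeta_bound K
  set B' : ℝ := B + 1 with hB'
  have hB'0 : 0 < B' := by linarith
  refine ⟨κ / (2 * B' + 2), by positivity, fun s hs hs2 => ?_⟩
  have hs1 : 0 < s - 1 := by linarith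
  have hsum := summable_absNorm_rpow K hs
  rw [div_le_iff₀ hs1]
  rcases le_or_gt (s - 1) (κ / (2 * B')) with hsmall | hlarge
  · -- near `s = 1`: use the class of the unit ideal
    have h1 := (h 1 s hs hs2).2
    rw [← classZeta_eq_tsum_nrm, abs_le] at h1
    have hZ := le_tsum_zterm hs
    have h2 : κ * (1 / (s - 1)) ≤ κ * ∑' n : ℕ, ((n : ℝ) + 1) ^ (-s) :=
      mul_le_mul_of_nonneg_left hZ hκ.le
    have h3 : classZeta K 1 s ≤
        ∑' I : (Ideal (𝓞 K))⁰, (Ideal.absNorm (I : Ideal (𝓞 K)) : ℝ) ^ (-s) := by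
      rw [tsum_absNorm_rpow_eq_sum_classZeta K hs hs2]
      exact Finset.single_le_sum (f := fun c => classZeta K c s)
        (fun c _ => classZeta_nonneg K c s) (Finset.mem_univ 1)
    have h4 : B' * (s - 1) ≤ κ / 2 := by
      have := mul_le_mul_of_nonneg_left hsmall hB'0.le
      have h5 : B' * (κ / (2 * B')) = κ / 2 := by field_simp
      linarith
    have h6 : κ - B * (s - 1) ≤ classZeta K 1 s * (s - 1) := by
      have h7 : κ * (1 / (s - 1)) - B ≤ classZeta K 1 s := by linarith [h1.1]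
      have h8 := mul_le_mul_of_nonneg_right h7 hs1.le
      have h9 : (κ * (1 / (s - 1)) - B) * (s - 1) = κ - B * (s - 1) := by field_simp
      linarith
    have h10 : κ / 2 ≤ classZeta K 1 s * (s - 1) := by
      have : B * (s - 1) ≤ B' * (s - 1) := by nlinarith
      linarith
    have h11 : κ / (2 * B' + 2) ≤ κ / 2 := by
      apply div_le_div_of_nonneg_left hκ.le (by norm_num) (by linarith)
    calc κ / (2 * B' + 2) ≤ κ / 2 := h11
      _ ≤ classZeta K 1 s * (s - 1) := h10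
      _ ≤ _ := mul_le_mul_of_nonneg_right h3 hs1.le
  · -- away from `s = 1`: the unit ideal alone contributes `1`
    have h1 : (1 : ℝ) ≤
        ∑' I : (Ideal (𝓞 K))⁰, (Ideal.absNorm (I : Ideal (𝓞 K)) : ℝ) ^ (-s) := by
      have h2 := hsum.le_tsum (1 : (Ideal (𝓞 K))⁰) fun J _ => absNorm_rpow_nonneg K s J
      have h3 : (Ideal.absNorm (((1 : (Ideal (𝓞 K))⁰) : Ideal (𝓞 K))) : ℝ) ^ (-s) = 1 := by
        have : (((1 : (Ideal (𝓞 K))⁰) : Ideal (𝓞 K))) = ⊤ := by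
          rw [Submonoid.coe_one, Ideal.one_eq_top]
        rw [this, Ideal.absNorm_top]
        simp
      rw [h3] at h2
      exact h2
    have h4 : κ / (2 * B' + 2) ≤ s - 1 := by
      have h5 : κ / (2 * B' + 2) ≤ κ / (2 * B') :=
        div_le_div_of_nonneg_left hκ.le (by positivity) (by linarith)
      linarith
    calc κ / (2 * B' + 2) ≤ s - 1 := h4
      _ = 1 * (s - 1) := (one_mul _).symm
      _ ≤ _ := mul_le_mul_of_nonneg_right h1 hs1.le

end Fermat.Agent.S14.SIan
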