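/-
T14 / SI-AN, package P9a: the character/Euler-product inequality.
For a subgroup `H` of the class group of index `h` and any finite set `T` of primes whose classes
lie in `H`:  `exp (h * ∑_{𝔭 ∈ T} N𝔭^(-s)) ≤ B * ζ_K(s)` uniformly for `s ∈ (1,2]`.

Math.  `G := Additive (Cl(K) ⧸ H)`, `ψ : AddChar G ℂ`, `f_ψ I := ψ [I] * N I^(-s)` completely
multiplicative with `‖f_ψ I‖ = N I^(-s)`.  By P6, `‖∑' I, f_ψ I‖ = exp (∑' 𝔭, -log ‖1 - f_ψ 𝔭‖)`; the
product over `ψ` is `exp (∑' 𝔭, ∑_ψ -log ‖1 - ψ [𝔭] N𝔭^(-s)‖)`, every inner sum is `≥ 0` and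
`≥ h N𝔭^(-s)` when `[𝔭] ∈ H` (P7).  On the other hand `∑' I, f_ψ I = ∑_c ψ(c) ζ_c(s)`, which for
`ψ ≠ 0` equals `∑_c ψ(c) (ζ_c(s) - ζ_1(s))`, bounded by P5; for `ψ = 0` it is `ζ_K(s)`.
-/
import Fermat.Agent.S14.SIan.PartialZeta
import Fermat.Agent.S14.SIan.EulerIdeal
import Fermat.Agent.S14.SIan.CharSum

set_option autoImplicit false

open NumberField nonZeroDivisors IsDedekindDomain

namespace Fermat.Agent.S14.SIan

variable (K : Type*) [Field K] [NumberField K] (H : Subgroup (ClassGroup (𝓞 K)))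

/-- The additive version of `Cl(K) ⧸ H`. -/
abbrev ClModH := Additive (ClassGroup (𝓞 K) ⧸ H)

/-- class of a class group element in `Cl(K) ⧸ H`, additively. -/
noncomputable def qcls (c : ClassGroup (𝓞 K)) : ClModH K H :=
  Additive.ofMul (QuotientGroup.mk c)

/-- class of a nonzero ideal in `Cl(K) ⧸ H`, additively. -/
noncomputable def icls (I : (Ideal (𝓞 K))⁰) : ClModH K H := qcls K H (ClassGroup.mk0 I)

theorem icls_one : icls K H 1 = 0 := by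
  simp [icls, qcls]

theorem icls_mul (I J : (Ideal (𝓞 K))⁰) : icls K H (I * J) = icls K H I + icls K H J := by
  simp [icls, qcls]

theorem icls_eq_zero_iff (I : (Ideal (𝓞 K))⁰) : icls K H I = 0 ↔ ClassGroup.mk0 I ∈ H := by
  unfold icls qcls
  rw [← ofMul_one, Additive.ofMul.apply_eq_iff_eq]
  exact QuotientGroup.eq_one_iff _

/-- The real number `N I ^ (-s)`. -/
noncomputable def nrm (s : ℝ) (I : (Ideal (𝓞 K))⁰) : ℝ :=
  (Ideal.absNorm (I : Ideal (𝓞 K)) : ℝ) ^ (-s)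

theorem nrm_nonneg (s : ℝ) (I : (Ideal (𝓞 K))⁰) : 0 ≤ nrm K s I := by
  unfold nrm; positivity

theorem nrm_one (s : ℝ) : nrm K s 1 = 1 := by
  simp [nrm]

theorem nrm_mul (s : ℝ) (I J : (Ideal (𝓞 K))⁰) : nrm K s (I * J) = nrm K s I * nrm K s J := by
  unfold nrm
  rw [Submonoid.coe_mul, map_mul, Nat.cast_mul, Real.mul_rpow (Nat.cast_nonneg _) (Nat.cast_nonneg _)]

/-- The completely multiplicative function `I ↦ ψ [I] N I ^ (-s)`. -/
noncomputable def fchar (ψ : AddChar (ClModH K H) ℂ) (s : ℝ) : (Ideal (𝓞 K))⁰ →* ℂ where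
  toFun I := ψ (icls K H I) * (nrm K s I : ℂ)
  map_one' := by simp [icls_one, nrm_one]
  map_mul' I J := by
    rw [icls_mul, AddChar.map_add_eq_mul, nrm_mul]
    push_cast
    ring

theorem fchar_apply (ψ : AddChar (ClModH K H) ℂ) (s : ℝ) (I : (Ideal (𝓞 K))⁰) :
    fchar K H ψ s I = ψ (icls K H I) * (nrm K s I : ℂ) := rfl

theorem norm_fchar (ψ : AddChar (ClModH K H) ℂ) (s : ℝ) (I : (Ideal (𝓞 K))⁰) :
    ‖fchar K H ψ s I‖ = nrm K s I := by
  rw [fchar_apply, norm_mul, AddChar.norm_apply, one_mul, Complex.norm_real, Real.norm_eq_abs,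
    abs_of_nonneg (nrm_nonneg K s I)]


theorem summable_nrm {s : ℝ} (hs : 1 < s) : Summable (nrm K s) :=
  summable_absNorm_rpow K hs

theorem summable_norm_fchar (ψ : AddChar (ClModH K H) ℂ) {s : ℝ} (hs : 1 < s) :
    Summable fun I => ‖fchar K H ψ s I‖ := by
  simp only [norm_fchar]
  exact summable_nrm K hs

/-- The norm of a prime is at least two, hence `N 𝔭 ^ (-s) < 1` for `s > 0`. -/
theorem nrm_prime_lt_one {s : ℝ} (hs : 0 < s) (𝔭 : HeightOneSpectrum (𝓞 K)) :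
    nrm K s (primeIdeal0 K 𝔭) < 1 := by
  unfold nrm primeIdeal0
  have h1 : 1 < Ideal.absNorm 𝔭.asIdeal := by
    have h0 : Ideal.absNorm 𝔭.asIdeal ≠ 0 := by
      rw [Ne, Ideal.absNorm_eq_zero_iff]
      exact 𝔭.ne_bot
    have h1 : Ideal.absNorm 𝔭.asIdeal ≠ 1 := by
      rw [Ne, Ideal.absNorm_eq_one_iff]
      exact 𝔭.isPrime.ne_top
    omega
  exact Real.rpow_lt_one_of_one_lt_of_neg (by exact_mod_cast h1) (by linarith)

/-- The local factor sum over all characters. -/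
noncomputable def localSum [Fintype (ClModH K H)] (s : ℝ) (𝔭 : HeightOneSpectrum (𝓞 K)) : ℝ :=
  ∑ ψ : AddChar (ClModH K H) ℂ, -Real.log ‖1 - fchar K H ψ s (primeIdeal0 K 𝔭)‖

theorem localSum_nonneg [Fintype (ClModH K H)] {s : ℝ} (hs : 0 < s)
    (𝔭 : HeightOneSpectrum (𝓞 K)) : 0 ≤ localSum K H s 𝔭 := by
  unfold localSum
  simp only [fchar_apply]
  exact charSum_nonneg _ (nrm_nonneg K s _) (nrm_prime_lt_one K hs 𝔭)

theorem le_localSum [Fintype (ClModH K H)] {s : ℝ} (hs : 0 < s)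
    (𝔭 : HeightOneSpectrum (𝓞 K)) (h𝔭 : ClassGroup.mk0 (primeIdeal0 K 𝔭) ∈ H) :
    (Fintype.card (ClModH K H) : ℝ) * nrm K s (primeIdeal0 K 𝔭) ≤ localSum K H s 𝔭 := by
  unfold localSum
  simp only [fchar_apply]
  rw [(icls_eq_zero_iff K H _).mpr h𝔭]
  exact card_mul_le_charSum_zero (nrm_nonneg K s _) (nrm_prime_lt_one K hs 𝔭)

theorem summable_localSum [Fintype (ClModH K H)] {s : ℝ} (hs : 1 < s) :
    Summable (localSum K H s) := by
  unfold localSum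
  exact summable_sum fun ψ _ => (norm_tsum_eq_exp K (fchar K H ψ s) (summable_norm_fchar K H ψ hs)).1

/-- The product over all characters of `‖L(s,ψ)‖` is the exponential of the sum of the local sums. -/
theorem prod_norm_tsum_eq [Fintype (ClModH K H)] {s : ℝ} (hs : 1 < s) :
    ∏ ψ : AddChar (ClModH K H) ℂ, ‖∑' I, fchar K H ψ s I‖ =
      Real.exp (∑' 𝔭, localSum K H s 𝔭) := by
  unfold localSum
  rw [Summable.tsum_finsetSum (fun ψ _ =>
    (norm_tsum_eq_exp K (fchar K H ψ s) (summable_norm_fchar K H ψ hs)).1), Real.exp_sum]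
  exact Finset.prod_congr rfl fun ψ _ =>
    (norm_tsum_eq_exp K (fchar K H ψ s) (summable_norm_fchar K H ψ hs)).2


theorem card_mul_sum_le_tsum_localSum [Fintype (ClModH K H)] {s : ℝ} (hs : 1 < s)
    (T : Finset (Ideal (𝓞 K)))
    (hT : ∀ 𝔭 ∈ T, 𝔭.IsPrime ∧ ∃ h : 𝔭 ≠ ⊥,
      ClassGroup.mk0 ⟨𝔭, mem_nonZeroDivisors_of_ne_zero h⟩ ∈ H) :
    (Fintype.card (ClModH K H) : ℝ) * ∑ 𝔭 ∈ T, (Ideal.absNorm 𝔭 : ℝ) ^ (-s) ≤
      ∑' 𝔭, localSum K H s 𝔭 := by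
  classical
  have hs0 : 0 < s := by linarith
  let e : {𝔭 // 𝔭 ∈ T} → HeightOneSpectrum (𝓞 K) := fun 𝔭 =>
    ⟨𝔭.1, (hT 𝔭.1 𝔭.2).1, (hT 𝔭.1 𝔭.2).2.choose⟩
  have he : Function.Injective e := fun a b hab =>
    Subtype.ext (congrArg HeightOneSpectrum.asIdeal hab)
  have h1 : (Fintype.card (ClModH K H) : ℝ) * ∑ 𝔭 ∈ T, (Ideal.absNorm 𝔭 : ℝ) ^ (-s) =
      ∑ a ∈ T.attach, (Fintype.card (ClModH K H) : ℝ) * nrm K s (primeIdeal0 K (e a)) := by
    rw [Finset.mul_sum, ← Finset.sum_attach]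
    rfl
  have h2 : ∑ a ∈ T.attach, (Fintype.card (ClModH K H) : ℝ) * nrm K s (primeIdeal0 K (e a)) ≤
      ∑ a ∈ T.attach, localSum K H s (e a) := by
    refine Finset.sum_le_sum fun a _ => le_localSum K H hs0 (e a) ?_
    exact (hT a.1 a.2).2.choose_spec
  have h3 : ∑ a ∈ T.attach, localSum K H s (e a) =
      ∑ 𝔮 ∈ T.attach.map ⟨e, he⟩, localSum K H s 𝔮 := by
    rw [Finset.sum_map]
    rfl
  rw [h1]
  refine h2.trans (h3.le.trans ?_)
  exact (summable_localSum K H hs).sum_le_tsum _ fun 𝔮 _ => localSum_nonneg K H hs0 𝔮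


theorem summable_fchar (ψ : AddChar (ClModH K H) ℂ) {s : ℝ} (hs : 1 < s) :
    Summable (fchar K H ψ s) :=
  Summable.of_norm (summable_norm_fchar K H ψ hs)

theorem classZeta_eq (c : ClassGroup (𝓞 K)) (s : ℝ) :
    classZeta K c s =
      ∑' I : ((fun I : (Ideal (𝓞 K))⁰ => ClassGroup.mk0 I) ⁻¹' {c}), nrm K s I.1 := rfl

/-- `L(s,ψ) = ∑_c ψ(c) ζ_c(s)`. -/
theorem tsum_fchar_eq (ψ : AddChar (ClModH K H) ℂ) {s : ℝ} (hs : 1 < s) :
    ∑' I, fchar K H ψ s I =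
      ∑ c : ClassGroup (𝓞 K), ψ (qcls K H c) * (classZeta K c s : ℂ) := by
  have h := ((summable_fchar K H ψ hs).hasSum.tsum_fiberwise
    (fun I : (Ideal (𝓞 K))⁰ => ClassGroup.mk0 I)).tsum_eq
  rw [← h, tsum_fintype]
  refine Finset.sum_congr rfl fun c _ => ?_
  rw [classZeta_eq, Complex.ofReal_tsum, ← tsum_mul_left]
  refine tsum_congr fun I => ?_
  have hI : ClassGroup.mk0 I.1 = c := I.2
  rw [fchar_apply, icls, hI]

theorem sum_char_qcls_eq_zero {ψ : AddChar (ClModH K H) ℂ} (hψ : ψ ≠ 0) :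
    ∑ c : ClassGroup (𝓞 K), ψ (qcls K H c) = 0 := by
  classical
  let φ : AddChar (Additive (ClassGroup (𝓞 K))) ℂ :=
    ψ.compAddMonoidHom (MonoidHom.toAdditive (QuotientGroup.mk' H))
  have hφ : φ ≠ 0 := by
    obtain ⟨g, hg⟩ := AddChar.ne_zero_iff.mp hψ
    obtain ⟨c, hc⟩ := QuotientGroup.mk_surjective (Additive.toMul g)
    refine AddChar.ne_zero_iff.mpr ⟨Additive.ofMul c, ?_⟩
    have : φ (Additive.ofMul c) = ψ g := by
      simp only [φ, AddChar.compAddMonoidHom_apply]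
      congr 1
    rwa [this]
  have h := AddChar.sum_eq_zero_iff_ne_zero.mpr hφ
  rw [← h]
  exact Fintype.sum_equiv Additive.ofMul _ _ fun c => rfl

theorem norm_tsum_fchar_le {ψ : AddChar (ClModH K H) ℂ} (hψ : ψ ≠ 0) {s : ℝ} (hs : 1 < s)
    {B : ℝ} (hB : ∀ c c' : ClassGroup (𝓞 K), |classZeta K c s - classZeta K c' s| ≤ B) :
    ‖∑' I, fchar K H ψ s I‖ ≤ (Fintype.card (ClassGroup (𝓞 K)) : ℝ) * B := by
  have h1 : ∑ c : ClassGroup (𝓞 K), ψ (qcls K H c) * (classZeta K c s : ℂ) =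
      ∑ c : ClassGroup (𝓞 K), ψ (qcls K H c) *
        ((classZeta K c s - classZeta K 1 s : ℝ) : ℂ) := by
    have h0 := sum_char_qcls_eq_zero K H hψ
    have : ∑ c : ClassGroup (𝓞 K), ψ (qcls K H c) *
        ((classZeta K c s - classZeta K 1 s : ℝ) : ℂ) =
        ∑ c : ClassGroup (𝓞 K), ψ (qcls K H c) * (classZeta K c s : ℂ) -
          (∑ c : ClassGroup (𝓞 K), ψ (qcls K H c)) * (classZeta K 1 s : ℂ) := by
      rw [Finset.sum_mul, ← Finset.sum_sub_distrib]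
      refine Finset.sum_congr rfl fun c _ => ?_
      push_cast
      ring
    rw [this, h0, zero_mul, sub_zero]
  rw [tsum_fchar_eq K H ψ hs, h1]
  refine (norm_sum_le _ _).trans ?_
  have : ∀ c ∈ (Finset.univ : Finset (ClassGroup (𝓞 K))),
      ‖ψ (qcls K H c) * ((classZeta K c s - classZeta K 1 s : ℝ) : ℂ)‖ ≤ B := by
    intro c _
    rw [norm_mul, AddChar.norm_apply, one_mul, Complex.norm_real, Real.norm_eq_abs]
    exact hB c 1
  refine (Finset.sum_le_sum this).trans ?_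
  rw [Finset.sum_const, Finset.card_univ, nsmul_eq_mul]

theorem tsum_fchar_zero (s : ℝ) :
    ∑' I, fchar K H 0 s I = ((∑' I, nrm K s I : ℝ) : ℂ) := by
  rw [Complex.ofReal_tsum]
  refine tsum_congr fun I => ?_
  rw [fchar_apply, AddChar.zero_apply, one_mul]


theorem exp_index_mul_sum_le :
    ∃ B : ℝ, 0 < B ∧ ∀ s : ℝ, 1 < s → s ≤ 2 → ∀ T : Finset (Ideal (𝓞 K)),
      (∀ 𝔭 ∈ T, 𝔭.IsPrime ∧ ∃ h : 𝔭 ≠ ⊥,
        ClassGroup.mk0 ⟨𝔭, mem_nonZeroDivisors_of_ne_zero h⟩ ∈ H) →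
      Real.exp ((H.index : ℝ) * ∑ 𝔭 ∈ T, (Ideal.absNorm 𝔭 : ℝ) ^ (-s)) ≤
        B * ∑' I : (Ideal (𝓞 K))⁰, (Ideal.absNorm (I : Ideal (𝓞 K)) : ℝ) ^ (-s) := by
  classical
  have : Fintype (ClModH K H) := Fintype.ofFinite _
  obtain ⟨B₀, hB₀⟩ := classZeta_sub_le K
  set M : ℝ := max 1 ((Fintype.card (ClassGroup (𝓞 K)) : ℝ) * B₀) with hM
  have hM1 : 1 ≤ M := le_max_left _ _
  set E : Finset (AddChar (ClModH K H) ℂ) := Finset.univ.erase 0 with hE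
  refine ⟨M ^ E.card, by positivity, fun s hs hs2 T hT => ?_⟩
  have hidx : (H.index : ℝ) = (Fintype.card (ClModH K H) : ℝ) := by
    rw [Subgroup.index_eq_card]
    have : Nat.card (ClassGroup (𝓞 K) ⧸ H) = Fintype.card (ClModH K H) := by
      show Nat.card (ClModH K H) = _
      exact Nat.card_eq_fintype_card
    rw [this]
  rw [hidx]
  have h1 := card_mul_sum_le_tsum_localSum K H hs T hT
  have h2 := prod_norm_tsum_eq K H hs
  have h3 : ∏ ψ : AddChar (ClModH K H) ℂ, ‖∑' I, fchar K H ψ s I‖ =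
      ‖∑' I, fchar K H 0 s I‖ * ∏ ψ ∈ E, ‖∑' I, fchar K H ψ s I‖ := by
    exact (Finset.mul_prod_erase Finset.univ (fun ψ : AddChar (ClModH K H) ℂ =>
      ‖∑' I, fchar K H ψ s I‖) (Finset.mem_univ 0)).symm
  have hZ0 : 0 ≤ ∑' I, nrm K s I := tsum_nonneg fun I => nrm_nonneg K s I
  have h4 : ‖∑' I, fchar K H 0 s I‖ = ∑' I, nrm K s I := by
    rw [tsum_fchar_zero, Complex.norm_real, Real.norm_eq_abs, abs_of_nonneg hZ0]
  have h5 : ∏ ψ ∈ E, ‖∑' I, fchar K H ψ s I‖ ≤ M ^ E.card := by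
    rw [← Finset.prod_const]
    refine Finset.prod_le_prod (fun ψ _ => norm_nonneg _) fun ψ hψ => ?_
    have hψ0 : ψ ≠ 0 := (Finset.mem_erase.mp hψ).1
    exact (norm_tsum_fchar_le K H hψ0 hs (hB₀ s hs hs2)).trans (le_max_right _ _)
  calc Real.exp ((Fintype.card (ClModH K H) : ℝ) * ∑ 𝔭 ∈ T, (Ideal.absNorm 𝔭 : ℝ) ^ (-s))
      ≤ Real.exp (∑' 𝔭, localSum K H s 𝔭) := Real.exp_le_exp.mpr h1
    _ = (∑' I, nrm K s I) * ∏ ψ ∈ E, ‖∑' I, fchar K H ψ s I‖ := by rw [← h2, h3, h4]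
    _ ≤ (∑' I, nrm K s I) * M ^ E.card := mul_le_mul_of_nonneg_left h5 hZ0
    _ = M ^ E.card * ∑' I : (Ideal (𝓞 K))⁰, (Ideal.absNorm (I : Ideal (𝓞 K)) : ℝ) ^ (-s) := by
        rw [mul_comm]
        rfl

end Fermat.Agent.S14.SIan
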