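/-
T14, analytic hedge SI-AN, piece P8 (helper88): degree-one primes of `L` and their relative norms.

For a prime `P` of `𝓞 L` whose absolute norm is a prime number, `𝔭 := P.under (𝓞 K)` is a prime of
`𝓞 K` with the same absolute norm, `relNorm (𝓞 K) P = 𝔭`, hence the class of `𝔭` lies in
`normClasses K L`; at most `[L:K]` primes of `𝓞 L` lie over `𝔭`.  Consequently
`primeSum L X s ≤ [L:K] * ∑_{𝔭 ∈ normPrimes K L X} N𝔭 ^ (-s)`.
-/
import Fermat.Agent.S14.Defs
import Fermat.Agent.S14.NonSplit.Defs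

set_option autoImplicit false

open NumberField nonZeroDivisors

namespace Fermat.Agent.S14.SIan

open Fermat.Agent.S14 Fermat.Agent.S14.NonSplit

section

variable (K : Type*) {L : Type*} [Field K] [NumberField K] [Field L] [NumberField L] [Algebra K L]

/-- If `P` is a prime of `𝓞 L` whose absolute norm is a prime number, then the prime
`P.under (𝓞 K)` below it has the same absolute norm and is the relative norm of `P`. -/
theorem relNorm_eq_under_of_prime_absNorm (P : Ideal (𝓞 L)) [P.IsPrime]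
    (hP : (Ideal.absNorm P).Prime) :
    Ideal.relNorm (𝓞 K) P = P.under (𝓞 K) ∧
      Ideal.absNorm (P.under (𝓞 K)) = Ideal.absNorm P := by
  obtain ⟨s, hs⟩ := Ideal.exists_relNorm_eq_pow_of_isPrime P (P.under (𝓞 K))
  have h1 : Ideal.absNorm (P.under (𝓞 K)) ^ s = Ideal.absNorm P := by
    rw [← map_pow, ← hs, Ideal.absNorm_relNorm]
  have hs1 : s = 1 := by
    rw [← h1] at hP
    exact Nat.Prime.eq_one_of_pow hP
  subst hs1
  rw [pow_one] at hs h1
  exact ⟨hs, h1⟩

variable (L) in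
/-- The class of a nonzero prime `𝔭` of `𝓞 K` lies in `N_{L/K} Cl(L)`. -/
def InNormClasses (𝔭 : Ideal (𝓞 K)) : Prop :=
  ∃ h : 𝔭 ≠ ⊥, ClassGroup.mk0 ⟨𝔭, mem_nonZeroDivisors_of_ne_zero h⟩ ∈ normClasses K L

/-- The prime below a degree-one prime of `L` has its class in `normClasses K L`. -/
theorem inNormClasses_under (P : Ideal (𝓞 L)) [P.IsPrime] (hP : (Ideal.absNorm P).Prime) :
    InNormClasses K L (P.under (𝓞 K)) := by
  have hP0 : P ≠ ⊥ := by
    rintro rfl
    simp [Nat.not_prime_zero] at hP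
  have h := relNorm_eq_under_of_prime_absNorm K P hP
  have hne : P.under (𝓞 K) ≠ ⊥ := by
    intro h0
    rw [h0, Ideal.absNorm_bot] at h
    exact Nat.not_prime_zero (h.2 ▸ hP)
  refine ⟨hne, ?_⟩
  apply Subgroup.subset_closure
  refine ⟨⟨P, mem_nonZeroDivisors_of_ne_zero hP0⟩, ?_⟩
  simp only [MonoidHom.coe_comp, Function.comp_apply]
  congr 1
  ext1
  exact h.1

/-- At most `[L:K]` primes of `𝓞 L` lie over a given prime of `𝓞 K`. -/
theorem ncard_primesOver_le_finrank (𝔭 : Ideal (𝓞 K)) [𝔭.IsPrime] :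
    (𝔭.primesOver (𝓞 L)).ncard ≤ Module.finrank K L := by
  have hfin : (𝔭.primesOver (𝓞 L)).Finite := Algebra.QuasiFinite.finite_primesOver 𝔭
  have : Fintype (𝔭.primesOver (𝓞 L)) := hfin.fintype
  have hsum := Ideal.sum_ramification_inertia_eq_finrank 𝔭 (𝓞 L)
  rw [IsFractionRing.finrank_eq (𝓞 K) K (𝓞 L) L, ← hsum, Set.ncard_eq_toFinset_card',
    Set.toFinset_card, Fintype.card_eq_sum_ones]
  refine Finset.sum_le_sum fun q _ => ?_
  have : q.1.IsPrime := q.2.1
  exact Right.one_le_mul (q.1.ramificationIdx_pos (𝓞 K)) (q.1.inertiaDeg_pos (𝓞 K))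

variable (L) in
/-- The degree-one primes of `K` of norm at most `X` whose class lies in `N_{L/K} Cl(L)`. -/
noncomputable def normPrimes (X : ℕ) : Finset (Ideal (𝓞 K)) :=
  open Classical in (degOnePrimes K X).filter (InNormClasses K L)

theorem mem_normPrimes {X : ℕ} {𝔭 : Ideal (𝓞 K)} :
    𝔭 ∈ normPrimes K L X ↔ 𝔭.IsPrime ∧ (Ideal.absNorm 𝔭).Prime ∧ Ideal.absNorm 𝔭 ≤ X ∧
      InNormClasses K L 𝔭 := by
  classical
  rw [normPrimes, Finset.mem_filter, mem_degOnePrimes]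
  tauto

/-- The prime below a degree-one prime of `L` of norm `≤ X` is in `normPrimes K L X`. -/
theorem under_mem_normPrimes {X : ℕ} {P : Ideal (𝓞 L)} (hP : P ∈ degOnePrimes L X) :
    P.under (𝓞 K) ∈ normPrimes K L X := by
  obtain ⟨hPp, hPn, hPX⟩ := mem_degOnePrimes.mp hP
  have h := relNorm_eq_under_of_prime_absNorm K P hPn
  rw [mem_normPrimes]
  exact ⟨Ideal.IsPrime.under (𝓞 K) P, h.2 ▸ hPn, h.2 ▸ hPX, inNormClasses_under K P hPn⟩

variable (L) in
/-- **P8.** The sum over degree-one primes of `L` is at most `[L:K]` times the sum over the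
degree-one primes of `K` whose class is a norm class. -/
theorem primeSum_le_finrank_mul_sum (X : ℕ) (s : ℝ) :
    primeSum L X s ≤ (Module.finrank K L : ℝ) *
      ∑ 𝔭 ∈ normPrimes K L X, (Ideal.absNorm 𝔭 : ℝ) ^ (-s) := by
  classical
  rw [primeSum, ← Finset.sum_fiberwise_of_maps_to (s := degOnePrimes L X)
    (t := normPrimes K L X) (g := fun P => P.under (𝓞 K))
    (fun P hP => under_mem_normPrimes K hP), Finset.mul_sum]
  refine Finset.sum_le_sum fun 𝔭 h𝔭 => ?_
  have h𝔭p : 𝔭.IsPrime := (mem_normPrimes K).mp h𝔭 |>.1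
  have hterm : ∀ P ∈ (degOnePrimes L X).filter (fun P => P.under (𝓞 K) = 𝔭),
      (Ideal.absNorm P : ℝ) ^ (-s) = (Ideal.absNorm 𝔭 : ℝ) ^ (-s) := by
    intro P hP
    rw [Finset.mem_filter] at hP
    obtain ⟨hPp, hPn, -⟩ := mem_degOnePrimes.mp hP.1
    rw [← hP.2, (relNorm_eq_under_of_prime_absNorm K P hPn).2]
  rw [Finset.sum_congr rfl hterm, Finset.sum_const, nsmul_eq_mul]
  refine mul_le_mul_of_nonneg_right ?_ (Real.rpow_nonneg (Nat.cast_nonneg _) _)
  have hsub : (((degOnePrimes L X).filter (fun P => P.under (𝓞 K) = 𝔭) : Finset _) : Set _) ⊆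
      𝔭.primesOver (𝓞 L) := by
    intro P hP
    rw [Finset.mem_coe, Finset.mem_filter] at hP
    exact ⟨(mem_degOnePrimes.mp hP.1).1, ⟨hP.2.symm⟩⟩
  have hfin : (𝔭.primesOver (𝓞 L)).Finite := Algebra.QuasiFinite.finite_primesOver 𝔭
  have hle := Set.ncard_le_ncard hsub hfin
  rw [Set.ncard_coe_finset] at hle
  exact_mod_cast hle.trans (ncard_primesOver_le_finrank K 𝔭)

end

/-- **P8**, in the exact shape of the SI-AN skeleton. -/
theorem exists_normPrimes (K L : Type*) [Field K] [NumberField K] [Field L] [NumberField L]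
    [Algebra K L] (X : ℕ) :
    ∃ T : Finset (Ideal (𝓞 K)),
      (∀ 𝔭 ∈ T, 𝔭.IsPrime ∧ ∃ h : 𝔭 ≠ ⊥,
        ClassGroup.mk0 ⟨𝔭, mem_nonZeroDivisors_of_ne_zero h⟩ ∈ normClasses K L) ∧
      ∀ s : ℝ, 0 ≤ s → NonSplit.primeSum L X s ≤
        (Module.finrank K L : ℝ) * ∑ 𝔭 ∈ T, (Ideal.absNorm 𝔭 : ℝ) ^ (-s) := by
  refine ⟨normPrimes K L X, fun 𝔭 h𝔭 => ?_, fun s _ => primeSum_le_finrank_mul_sum K L X s⟩
  have h := (mem_normPrimes K).mp h𝔭
  exact ⟨h.1, h.2.2.2⟩

end Fermat.Agent.S14.SIan
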