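/-
T14 / SI-AN, package P9b (helper21): the final squeeze, with the character bound P9a as a hypothesis.
`zetaR L s ^ h ≤ (B * zetaR K s) ^ n * exp (h * c_L)` for `s ∈ (1,2]`; multiply by `(s-1)^h`, let `s → 1⁺`.
-/
import Fermat.Agent.S14.SIan.NormPrimes
import Fermat.Agent.S14.NonSplit.Export

set_option autoImplicit false

open NumberField nonZeroDivisors Filter Topology

namespace Fermat.Agent.S14.SIan

open Fermat.Agent.S14.NonSplit

/-- The series over nonzero ideals is bounded by the real Dedekind zeta series. -/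
lemma tsum_nonZeroDivisors_le_zetaR (K : Type*) [Field K] [NumberField K] {s : ℝ} (hs : 1 < s) :
    ∑' I : (Ideal (𝓞 K))⁰, (Ideal.absNorm (I : Ideal (𝓞 K)) : ℝ) ^ (-s) ≤ zetaR K s := by
  classical
  refine tsum_le_of_sum_le' (zetaR_nonneg K s) fun A => ?_
  have h := sum_ideals_le_zetaR K hs (A.map ⟨fun I : (Ideal (𝓞 K))⁰ => (I : Ideal (𝓞 K)),
    Subtype.coe_injective⟩)
  rwa [Finset.sum_map] at h

section

variable (K L : Type*) [Field K] [NumberField K] [Field L] [NumberField L] [Algebra K L]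

/-- The key inequality between the two zeta functions. -/
lemma zetaR_pow_index_le {B : ℝ} (hB0 : 0 < B)
    (hB : ∀ s : ℝ, 1 < s → s ≤ 2 → ∀ T : Finset (Ideal (𝓞 K)),
      (∀ 𝔭 ∈ T, 𝔭.IsPrime ∧ ∃ h : 𝔭 ≠ ⊥,
        ClassGroup.mk0 ⟨𝔭, mem_nonZeroDivisors_of_ne_zero h⟩ ∈ normClasses K L) →
      Real.exp (((normClasses K L).index : ℝ) * ∑ 𝔭 ∈ T, (Ideal.absNorm 𝔭 : ℝ) ^ (-s)) ≤
        B * ∑' I : (Ideal (𝓞 K))⁰, (Ideal.absNorm (I : Ideal (𝓞 K)) : ℝ) ^ (-s))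
    {s : ℝ} (hs : 1 < s) (hs2 : s ≤ 2) :
    zetaR L s ^ (normClasses K L).index ≤ (B * zetaR K s) ^ Module.finrank K L *
      Real.exp (((normClasses K L).index : ℝ) * lowerConst L) := by
  set h := (normClasses K L).index with hh
  set n := Module.finrank K L with hn
  have hX : ∀ X : ℕ, (∑ m ∈ Finset.range (X + 1), (idealCount L m : ℝ) * (m : ℝ) ^ (-s)) ^ h ≤
      (B * zetaR K s) ^ n * Real.exp ((h : ℝ) * lowerConst L) := by
    intro X
    have h1 := sum_range_le_exp_primeSum L hs.le X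
    have h0 : 0 ≤ ∑ m ∈ Finset.range (X + 1), (idealCount L m : ℝ) * (m : ℝ) ^ (-s) :=
      Finset.sum_nonneg fun m _ => zetaTerm_nonneg L s m
    have h2 := pow_le_pow_left₀ h0 h1 h
    rw [← Real.exp_nat_mul] at h2
    obtain ⟨T, hT, hTs⟩ := exists_normPrimes K L X
    have h3 := hTs s (by linarith)
    have h4 := hB s hs hs2 T hT
    have h5 : B * ∑' I : (Ideal (𝓞 K))⁰, (Ideal.absNorm (I : Ideal (𝓞 K)) : ℝ) ^ (-s) ≤
        B * zetaR K s := mul_le_mul_of_nonneg_left (tsum_nonZeroDivisors_le_zetaR K hs) hB0.le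
    have hh0 : (0 : ℝ) ≤ (h : ℝ) := Nat.cast_nonneg h
    -- `h * primeSum ≤ n * (h * ∑_T)`
    have h6 : (h : ℝ) * primeSum L X s ≤
        (n : ℝ) * ((h : ℝ) * ∑ 𝔭 ∈ T, (Ideal.absNorm 𝔭 : ℝ) ^ (-s)) := by
      have := mul_le_mul_of_nonneg_left h3 hh0
      linarith
    have h7 : Real.exp ((n : ℝ) * ((h : ℝ) * ∑ 𝔭 ∈ T, (Ideal.absNorm 𝔭 : ℝ) ^ (-s))) ≤
        (B * zetaR K s) ^ n := by
      rw [Real.exp_nat_mul]
      exact pow_le_pow_left₀ (Real.exp_pos _).le (h4.trans h5) n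
    calc (∑ m ∈ Finset.range (X + 1), (idealCount L m : ℝ) * (m : ℝ) ^ (-s)) ^ h
        ≤ Real.exp ((h : ℝ) * (primeSum L X s + lowerConst L)) := h2
      _ = Real.exp ((h : ℝ) * primeSum L X s) * Real.exp ((h : ℝ) * lowerConst L) := by
          rw [← Real.exp_add]; congr 1; ring
      _ ≤ (B * zetaR K s) ^ n * Real.exp ((h : ℝ) * lowerConst L) :=
          mul_le_mul_of_nonneg_right ((Real.exp_le_exp.mpr h6).trans h7) (Real.exp_pos _).le
  have hlim : Tendsto (fun X : ℕ =>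
      (∑ m ∈ Finset.range (X + 1), (idealCount L m : ℝ) * (m : ℝ) ^ (-s)) ^ h) atTop
      (𝓝 (zetaR L s ^ h)) := by
    have := (summable_zetaTerm L hs).hasSum.tendsto_sum_nat
    exact ((this.comp (tendsto_add_atTop_nat 1)).pow h)
  exact le_of_tendsto' hlim hX

/-- P9b with the character bound as a hypothesis. -/
theorem index_le_finrank_of_charBound
    (hB : ∃ B : ℝ, 0 < B ∧ ∀ s : ℝ, 1 < s → s ≤ 2 → ∀ T : Finset (Ideal (𝓞 K)),
      (∀ 𝔭 ∈ T, 𝔭.IsPrime ∧ ∃ h : 𝔭 ≠ ⊥,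
        ClassGroup.mk0 ⟨𝔭, mem_nonZeroDivisors_of_ne_zero h⟩ ∈ normClasses K L) →
      Real.exp (((normClasses K L).index : ℝ) * ∑ 𝔭 ∈ T, (Ideal.absNorm 𝔭 : ℝ) ^ (-s)) ≤
        B * ∑' I : (Ideal (𝓞 K))⁰, (Ideal.absNorm (I : Ideal (𝓞 K)) : ℝ) ^ (-s)) :
    (normClasses K L).index ≤ Module.finrank K L := by
  obtain ⟨B, hB0, hB⟩ := hB
  by_contra hlt
  rw [not_le] at hlt
  set h := (normClasses K L).index with hh
  set n := Module.finrank K L with hn
  set M : ℝ := Real.exp ((h : ℝ) * lowerConst L) with hM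
  have hK := tendsto_sub_one_mul_zetaR K
  have hL := tendsto_sub_one_mul_zetaR L
  have hf : Tendsto (fun s : ℝ => ((s - 1) * zetaR L s) ^ h) (𝓝[>] 1)
      (𝓝 (dedekindZeta_residue L ^ h)) := hL.pow h
  have hpow : Tendsto (fun s : ℝ => (s - 1) ^ (h - n)) (𝓝[>] 1) (𝓝 0) := by
    have h1 : Tendsto (fun s : ℝ => (s - 1) ^ (h - n)) (𝓝 1) (𝓝 ((1 - 1) ^ (h - n))) :=
      ((continuous_id.sub continuous_const).pow (h - n)).tendsto 1
    rw [sub_self, zero_pow (by omega)] at h1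
    exact tendsto_nhdsWithin_of_tendsto_nhds h1
  have hg : Tendsto (fun s : ℝ => (s - 1) ^ (h - n) * (B * ((s - 1) * zetaR K s)) ^ n * M)
      (𝓝[>] 1) (𝓝 (0 * (B * dedekindZeta_residue K) ^ n * M)) :=
    (hpow.mul ((hK.const_mul B).pow n)).mul_const M
  have hle : ∀ᶠ s in 𝓝[>] (1 : ℝ), ((s - 1) * zetaR L s) ^ h ≤
      (s - 1) ^ (h - n) * (B * ((s - 1) * zetaR K s)) ^ n * M := by
    filter_upwards [Ioc_mem_nhdsGT (show (1 : ℝ) < 2 by norm_num)] with s hs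
    have h1 := zetaR_pow_index_le K L hB0 hB hs.1 hs.2
    have hpos : 0 ≤ (s - 1) ^ h := pow_nonneg (by linarith [hs.1]) h
    calc ((s - 1) * zetaR L s) ^ h = (s - 1) ^ h * zetaR L s ^ h := mul_pow _ _ _
      _ ≤ (s - 1) ^ h * ((B * zetaR K s) ^ n * M) := mul_le_mul_of_nonneg_left h1 hpos
      _ = (s - 1) ^ (h - n) * (B * ((s - 1) * zetaR K s)) ^ n * M := by
          have : h = (h - n) + n := by omega
          conv_lhs => rw [this, pow_add]
          rw [mul_pow B, mul_pow B, mul_pow (s - 1)]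
          ring
  have := le_of_tendsto_of_tendsto hf hg hle
  rw [zero_mul, zero_mul] at this
  have hpos : 0 < dedekindZeta_residue L ^ h := pow_pos (dedekindZeta_residue_pos L) h
  linarith

end

end Fermat.Agent.S14.SIan
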