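/-
T14 / SI-AN, package P9b: the universal norm index inequality `[Cl(K) : N Cl(L)] ≤ [L:K]`
(analytic proof), final squeeze.

Math.  `h := (normClasses K L).index`, `n := [L:K]`.  P9a (`exp_index_mul_sum_le` with
`H = normClasses K L`) and P8 (`exists_normPrimes`): for every `X` and `s ∈ (1,2]`,
`exp ((h/n) * primeSum L X s) ≤ exp (h * ∑_{𝔭 ∈ T_X} N𝔭^(-s)) ≤ B * Z_K(s)`,
`Z_K(s) := ∑' I, N I^(-s) ≤ zetaR K s ≤ 2 ρ_K/(s-1)` near `1` (NonSplit/Zeta `sum_ideals_le_zetaR`,
NonSplit/Export `exists_zetaR_bounds`).  So `primeSum L X s ≤ S := (n/h) log (B Z_K(s))` for all `X`, and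
NonSplit/Export `zetaR_le_exp_of_primeSum_le` gives `ρ_L/(2(s-1)) ≤ zetaR L s ≤ exp (S + c_L)
= (B Z_K(s))^(n/h) e^(c_L) ≤ (2 B ρ_K/(s-1))^(n/h) e^(c_L)`.  If `h > n` then `n/h < 1` and
`(1/(s-1))^(1 - n/h)` stays bounded as `s → 1⁺`: contradiction.
-/
import Fermat.Agent.S14.SIan.CharBound
import Fermat.Agent.S14.SIan.NormPrimes
import Fermat.Agent.S14.NonSplit.Export
import Fermat.Agent.S14.SIan.MainAux

set_option autoImplicit false

open NumberField nonZeroDivisors

namespace Fermat.Agent.S14.SIan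

theorem index_normClasses_le_finrank (K L : Type*) [Field K] [NumberField K] [Field L]
    [NumberField L] [Algebra K L] : (normClasses K L).index ≤ Module.finrank K L :=
  index_le_finrank_of_charBound K L (exp_index_mul_sum_le K (normClasses K L))

end Fermat.Agent.S14.SIan
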