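import Mathlib

/-!
# T14 / SI-AN : elementary bounds for the real Riemann zeta series

For real `s > 1`:  `1/(s-1) ≤ ∑ (n+1)^(-s) ≤ s/(s-1)` (comparison with `∫ x^(-s)`), in the shifted
indexing used by `AbelBound.abel_bound` and in the unshifted one (`∑' n : ℕ, n^(-s)`, whose `n = 0`
term vanishes).  Intended for P5 (`zeta_le`, `zeta_ge`).
-/

set_option autoImplicit false

open Finset Filter Topology MeasureTheory

namespace Fermat.Agent.S14.SIan

/-- `x ↦ x^(-s)` is antitone on `[1, b]` for `s ≥ 0`. -/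
lemma antitoneOn_rpow_neg (s : ℝ) (hs : 0 ≤ s) (b : ℝ) :
    AntitoneOn (fun x : ℝ => x ^ (-s)) (Set.Icc 1 b) := by
  intro x hx y hy hxy
  exact Real.rpow_le_rpow_of_nonpos (by linarith [hx.1]) hxy (by linarith)

/-- `∫_1^{1+a} x^(-s) dx = (1 - (1+a)^(1-s)) / (s-1)`. -/
lemma integral_rpow_neg (s : ℝ) (hs : 1 < s) (a : ℕ) :
    ∫ x in (1 : ℝ)..1 + a, x ^ (-s) = (1 - (1 + (a : ℝ)) ^ (1 - s)) / (s - 1) := by
  have ha : (0 : ℝ) ≤ a := Nat.cast_nonneg a
  rw [integral_rpow]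
  · rw [Real.one_rpow]
    have h1 : -s + 1 = 1 - s := by ring
    have h2 : (1 - s) = -(s - 1) := by ring
    rw [h1]
    rw [h2, div_neg, ← neg_div, neg_sub]
  · right
    refine ⟨by linarith, ?_⟩
    rw [Set.uIcc_of_le (by linarith)]
    intro h
    linarith [h.1]

/-- Partial sums of `∑ (n+1)^(-s)` are at most `s/(s-1)`. -/
lemma sum_range_rpow_neg_le (s : ℝ) (hs : 1 < s) (M : ℕ) :
    ∑ n ∈ range M, ((n : ℝ) + 1) ^ (-s) ≤ s / (s - 1) := by
  have hs0 : 0 < s - 1 := by linarith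
  rcases Nat.eq_zero_or_pos M with hM | hM
  · subst hM
    simp only [Finset.range_zero, Finset.sum_empty]
    positivity
  obtain ⟨a, rfl⟩ : ∃ a, M = a + 1 := ⟨M - 1, by omega⟩
  rw [Finset.sum_range_succ']
  have h := (antitoneOn_rpow_neg s (by linarith) (1 + a)).sum_le_integral (x₀ := 1) (a := a)
  rw [integral_rpow_neg s hs a] at h
  have hnn : 0 ≤ (1 + (a : ℝ)) ^ (1 - s) := Real.rpow_nonneg (by positivity) _
  have h2 : (1 - (1 + (a : ℝ)) ^ (1 - s)) / (s - 1) ≤ 1 / (s - 1) := by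
    apply div_le_div_of_nonneg_right _ hs0.le
    linarith
  have e : ∑ i ∈ range a, ((((i + 1 : ℕ) : ℝ)) + 1) ^ (-s) =
      ∑ i ∈ range a, (fun x : ℝ => x ^ (-s)) (1 + ((i + 1 : ℕ) : ℝ)) := by
    apply Finset.sum_congr rfl
    intro i _
    simp only [add_comm]
  rw [e]
  have e0 : (((0 : ℕ) : ℝ) + 1) ^ (-s) = 1 := by simp
  rw [e0]
  have : s / (s - 1) = 1 / (s - 1) + 1 := by
    field_simp
    ring
  rw [this]
  linarith

lemma summable_add_one_rpow_neg (s : ℝ) (hs : 1 < s) :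
    Summable (fun n : ℕ => ((n : ℝ) + 1) ^ (-s)) := by
  have h : Summable (fun n : ℕ => (n : ℝ) ^ (-s)) := Real.summable_nat_rpow.mpr (by linarith)
  have := (summable_nat_add_iff 1).mpr h
  refine this.congr (fun n => ?_)
  simp only [Nat.cast_add, Nat.cast_one]

/-- `ζ(s) ≤ s/(s-1)` for real `s > 1`. -/
theorem tsum_add_one_rpow_neg_le (s : ℝ) (hs : 1 < s) :
    ∑' n : ℕ, ((n : ℝ) + 1) ^ (-s) ≤ s / (s - 1) :=
  (summable_add_one_rpow_neg s hs).tsum_le_of_sum_range_le (sum_range_rpow_neg_le s hs)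

/-- `1/(s-1) ≤ ζ(s)` for real `s > 1`. -/
theorem le_tsum_add_one_rpow_neg (s : ℝ) (hs : 1 < s) :
    1 / (s - 1) ≤ ∑' n : ℕ, ((n : ℝ) + 1) ^ (-s) := by
  have hs0 : 0 < s - 1 := by linarith
  have hsum := summable_add_one_rpow_neg s hs
  have hnn : ∀ n : ℕ, 0 ≤ ((n : ℝ) + 1) ^ (-s) := fun n => Real.rpow_nonneg (by positivity) _
  have hpart : ∀ a : ℕ, (1 - (1 + (a : ℝ)) ^ (1 - s)) / (s - 1) ≤
      ∑' n : ℕ, ((n : ℝ) + 1) ^ (-s) := by
    intro a
    have h := (antitoneOn_rpow_neg s (by linarith) (1 + a)).integral_le_sum (x₀ := 1) (a := a)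
    rw [integral_rpow_neg s hs a] at h
    refine h.trans ?_
    have e : ∑ i ∈ range a, (fun x : ℝ => x ^ (-s)) (1 + (i : ℝ)) =
        ∑ i ∈ range a, ((i : ℝ) + 1) ^ (-s) := by
      apply Finset.sum_congr rfl
      intro i _
      simp only [add_comm]
    rw [e]
    exact hsum.sum_le_tsum _ (fun i _ => hnn i)
  have hlim : Tendsto (fun a : ℕ => (1 - (1 + (a : ℝ)) ^ (1 - s)) / (s - 1)) atTop
      (𝓝 ((1 - 0) / (s - 1))) := by
    apply Tendsto.div_const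
    apply Tendsto.const_sub
    have h1 : Tendsto (fun a : ℕ => (1 + (a : ℝ))) atTop atTop :=
      tendsto_atTop_add_const_left _ _ tendsto_natCast_atTop_atTop
    have h2 := (tendsto_rpow_neg_atTop hs0).comp h1
    refine h2.congr (fun a => ?_)
    simp only [Function.comp, neg_sub]
  rw [sub_zero] at hlim
  exact le_of_tendsto' hlim hpart

/-- Unshifted forms (the term `n = 0` vanishes since `0 ^ (-s) = 0`). -/
theorem tsum_rpow_neg_eq (s : ℝ) (hs : 1 < s) :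
    ∑' n : ℕ, (n : ℝ) ^ (-s) = ∑' n : ℕ, ((n : ℝ) + 1) ^ (-s) := by
  have h : Summable (fun n : ℕ => (n : ℝ) ^ (-s)) := Real.summable_nat_rpow.mpr (by linarith)
  rw [h.tsum_eq_zero_add, Nat.cast_zero, Real.zero_rpow (by linarith), zero_add]
  apply tsum_congr
  intro n
  simp only [Nat.cast_add, Nat.cast_one]

theorem tsum_rpow_neg_le (s : ℝ) (hs : 1 < s) : ∑' n : ℕ, (n : ℝ) ^ (-s) ≤ s / (s - 1) := by
  rw [tsum_rpow_neg_eq s hs]
  exact tsum_add_one_rpow_neg_le s hs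

theorem le_tsum_rpow_neg (s : ℝ) (hs : 1 < s) : 1 / (s - 1) ≤ ∑' n : ℕ, (n : ℝ) ^ (-s) := by
  rw [tsum_rpow_neg_eq s hs]
  exact le_tsum_add_one_rpow_neg s hs

/-- On `(1, 2]`: `ζ(s) ≤ 2/(s-1)`. -/
theorem tsum_add_one_rpow_neg_le_two_div (s : ℝ) (hs : 1 < s) (hs2 : s ≤ 2) :
    ∑' n : ℕ, ((n : ℝ) + 1) ^ (-s) ≤ 2 / (s - 1) := by
  refine (tsum_add_one_rpow_neg_le s hs).trans ?_
  apply div_le_div_of_nonneg_right hs2 (by linarith)

end Fermat.Agent.S14.SIan
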