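/-
T14 / SI-AN, hedge for package P5 (helper41): the three statements of `PartialZeta.lean` that
concern the FULL Dedekind zeta series over nonzero ideals,

  `summable_absNorm_rpow`, `zeta_le`, `zeta_ge`   (here with suffix `_cnf`, statements VERBATIM),

proved directly from Mathlib's analytic class number formula
(`NumberField.tendsto_sub_one_mul_dedekindZeta_nhdsGT`) through helper21's real form
`NonSplit/Zeta.lean` (`zetaR`, `tendsto_sub_one_mul_zetaR`, `sum_ideals_le_zetaR`,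
`sum_range_eq_sum_idealsLE`).  No dependence on P1/P2/P3/P4.

Also: `tsum_absNorm_rpow_eq_zetaR` (the series over `(Ideal (𝓞 K))⁰` IS `zetaR K s`),
`zetaR_anti`, `one_le_zetaR`, `zetaR_le_div`, `div_le_zetaR`.
-/
import Fermat.Agent.S14.NonSplit.Zeta

set_option autoImplicit false

open NumberField nonZeroDivisors Filter Topology

namespace Fermat.Agent.S14.SIan

open Fermat.Agent.S14.NonSplit

variable (K : Type*) [Field K] [NumberField K]

/-- the norm term is nonnegative -/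
lemma absNorm_rpow_nonneg_cnf (s : ℝ) (I : (Ideal (𝓞 K))⁰) :
    0 ≤ (Ideal.absNorm (I : Ideal (𝓞 K)) : ℝ) ^ (-s) := by positivity

/-- finite sums over nonzero ideals are bounded by the real zeta series -/
lemma sum_nzd_le_zetaR {s : ℝ} (hs : 1 < s) (A : Finset (Ideal (𝓞 K))⁰) :
    ∑ I ∈ A, (Ideal.absNorm (I : Ideal (𝓞 K)) : ℝ) ^ (-s) ≤ zetaR K s := by
  classical
  have h := sum_ideals_le_zetaR K hs (A.image (fun I : (Ideal (𝓞 K))⁰ => (I : Ideal (𝓞 K))))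
  rwa [Finset.sum_image (fun x _ y _ hxy => Subtype.ext hxy)] at h

theorem summable_absNorm_rpow_cnf {s : ℝ} (hs : 1 < s) :
    Summable fun I : (Ideal (𝓞 K))⁰ => (Ideal.absNorm (I : Ideal (𝓞 K)) : ℝ) ^ (-s) :=
  summable_of_sum_le (fun I => absNorm_rpow_nonneg_cnf K s I) (fun A => sum_nzd_le_zetaR K hs A)

theorem tsum_absNorm_rpow_le_zetaR {s : ℝ} (hs : 1 < s) :
    ∑' I : (Ideal (𝓞 K))⁰, (Ideal.absNorm (I : Ideal (𝓞 K)) : ℝ) ^ (-s) ≤ zetaR K s :=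
  Real.tsum_le_of_sum_le (fun I => absNorm_rpow_nonneg_cnf K s I) (fun A => sum_nzd_le_zetaR K hs A)

theorem zetaR_le_tsum_absNorm_rpow {s : ℝ} (hs : 1 < s) :
    zetaR K s ≤ ∑' I : (Ideal (𝓞 K))⁰, (Ideal.absNorm (I : Ideal (𝓞 K)) : ℝ) ^ (-s) := by
  classical
  have hsum := summable_absNorm_rpow_cnf K hs
  have hnn : 0 ≤ ∑' I : (Ideal (𝓞 K))⁰, (Ideal.absNorm (I : Ideal (𝓞 K)) : ℝ) ^ (-s) :=
    tsum_nonneg (fun I => absNorm_rpow_nonneg_cnf K s I)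
  refine Real.tsum_le_of_sum_range_le (fun n => zetaTerm_nonneg K s n) (fun n => ?_)
  rcases n with _ | X
  · simpa using hnn
  rw [sum_range_eq_sum_idealsLE K X s]
  have h1 : ∑ I ∈ (idealsLE K X).filter (fun I => I ∈ (Ideal (𝓞 K))⁰),
        (Ideal.absNorm I : ℝ) ^ (-s) = ∑ I ∈ idealsLE K X, (Ideal.absNorm I : ℝ) ^ (-s) := by
    refine Finset.sum_filter_of_ne (fun I _ hI => ?_)
    rw [mem_nonZeroDivisors_iff_ne_zero]
    rintro rfl
    apply hI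
    rw [Ideal.zero_eq_bot, Ideal.absNorm_bot, Nat.cast_zero,
      Real.zero_rpow (by linarith : -s ≠ 0)]
  rw [← h1, ← Finset.sum_subtype_eq_sum_filter]
  exact hsum.sum_le_tsum _ (fun I _ => absNorm_rpow_nonneg_cnf K s I)

theorem tsum_absNorm_rpow_eq_zetaR {s : ℝ} (hs : 1 < s) :
    ∑' I : (Ideal (𝓞 K))⁰, (Ideal.absNorm (I : Ideal (𝓞 K)) : ℝ) ^ (-s) = zetaR K s :=
  le_antisymm (tsum_absNorm_rpow_le_zetaR K hs) (zetaR_le_tsum_absNorm_rpow K hs)

/-- `zetaR` is antitone on `(1, ∞)`. -/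
lemma zetaR_anti {s t : ℝ} (hs : 1 < s) (hst : s ≤ t) : zetaR K t ≤ zetaR K s := by
  refine (summable_zetaTerm K (hs.trans_le hst)).tsum_le_tsum (fun n => ?_)
    (summable_zetaTerm K hs)
  rcases Nat.eq_zero_or_pos n with rfl | hn
  · rw [Nat.cast_zero, Real.zero_rpow (by linarith : -t ≠ 0),
      Real.zero_rpow (by linarith : -s ≠ 0)]
  · refine mul_le_mul_of_nonneg_left ?_ (Nat.cast_nonneg _)
    exact Real.rpow_le_rpow_of_exponent_le (by exact_mod_cast hn) (by linarith)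

/-- The unit ideal contributes `1`. -/
lemma one_le_zetaR {s : ℝ} (hs : 1 < s) : 1 ≤ zetaR K s := by
  rw [← tsum_absNorm_rpow_eq_zetaR K hs]
  have h := (summable_absNorm_rpow_cnf K hs).le_tsum (1 : (Ideal (𝓞 K))⁰)
    (fun I _ => absNorm_rpow_nonneg_cnf K s I)
  simpa using h

/-- Two-sided bound for `(s - 1) ζ_K(s)` near `1`. -/
lemma zetaR_exists_Ioo_bounds :
    ∃ u : ℝ, 1 < u ∧ ∀ s : ℝ, 1 < s → s < u →
      dedekindZeta_residue K / 2 < (s - 1) * zetaR K s ∧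
      (s - 1) * zetaR K s < dedekindZeta_residue K + 1 := by
  have hρ := dedekindZeta_residue_pos K
  have h := (tendsto_sub_one_mul_zetaR K).eventually
    (Ioo_mem_nhds (a := dedekindZeta_residue K / 2) (b := dedekindZeta_residue K + 1)
      (by linarith) (by linarith))
  obtain ⟨u, hu, hsub⟩ := mem_nhdsGT_iff_exists_Ioo_subset.mp h
  exact ⟨u, hu, fun s hs hsu => hsub ⟨hs, hsu⟩⟩

theorem zetaR_le_div :
    ∃ B₁ : ℝ, 0 < B₁ ∧ ∀ s : ℝ, 1 < s → s ≤ 2 → zetaR K s ≤ B₁ / (s - 1) := by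
  obtain ⟨u, hu, hb⟩ := zetaR_exists_Ioo_bounds K
  have hρ := dedekindZeta_residue_pos K
  set ρ := dedekindZeta_residue K
  set δ : ℝ := min (u - 1) 1 with hδ
  have hδ0 : 0 < δ := lt_min (by linarith) one_pos
  have hδ1 : δ ≤ 1 := min_le_right _ _
  have hδu : δ ≤ u - 1 := min_le_left _ _
  set s₀ : ℝ := 1 + δ / 2 with hs₀
  have hs₀1 : 1 < s₀ := by rw [hs₀]; linarith
  have hs₀u : s₀ < u := by rw [hs₀]; linarith
  have hB : 0 < (ρ + 1) / (δ / 2) := by positivity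
  refine ⟨(ρ + 1) / (δ / 2), hB, fun s hs hs2 => ?_⟩
  have hs1 : 0 < s - 1 := by linarith
  rw [le_div_iff₀ hs1]
  by_cases hsu : s < u
  · have h1 := (hb s hs hsu).2
    have h2 : ρ + 1 ≤ (ρ + 1) / (δ / 2) := by
      rw [le_div_iff₀ (by positivity)]
      nlinarith
    linarith
  · have hsu := not_lt.mp hsu
    have h1 := (hb s₀ hs₀1 hs₀u).2
    have h2 : zetaR K s ≤ zetaR K s₀ := zetaR_anti K hs₀1 (by linarith)
    have h3 : zetaR K s₀ ≤ (ρ + 1) / (δ / 2) := by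
      rw [le_div_iff₀ (by positivity)]
      have : s₀ - 1 = δ / 2 := by rw [hs₀]; ring
      rw [this] at h1
      linarith
    have h4 : 0 ≤ zetaR K s := zetaR_nonneg K s
    nlinarith

theorem div_le_zetaR :
    ∃ B₂ : ℝ, 0 < B₂ ∧ ∀ s : ℝ, 1 < s → s ≤ 2 → B₂ / (s - 1) ≤ zetaR K s := by
  obtain ⟨u, hu, hb⟩ := zetaR_exists_Ioo_bounds K
  have hρ := dedekindZeta_residue_pos K
  set ρ := dedekindZeta_residue K
  refine ⟨min (ρ / 2) (u - 1), lt_min (by linarith) (by linarith), fun s hs _ => ?_⟩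
  have hs1 : 0 < s - 1 := by linarith
  rw [div_le_iff₀ hs1]
  by_cases hsu : s < u
  · have h1 := (hb s hs hsu).1
    have := min_le_left (ρ / 2) (u - 1)
    linarith
  · have hsu := not_lt.mp hsu
    have h1 := one_le_zetaR K hs
    have := min_le_right (ρ / 2) (u - 1)
    nlinarith

theorem zeta_le_cnf :
    ∃ B₁ : ℝ, 0 < B₁ ∧ ∀ s : ℝ, 1 < s → s ≤ 2 →
      ∑' I : (Ideal (𝓞 K))⁰, (Ideal.absNorm (I : Ideal (𝓞 K)) : ℝ) ^ (-s) ≤ B₁ / (s - 1) := by
  obtain ⟨B, hB, h⟩ := zetaR_le_div K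
  exact ⟨B, hB, fun s hs hs2 => (tsum_absNorm_rpow_eq_zetaR K hs).trans_le (h s hs hs2)⟩

theorem zeta_ge_cnf :
    ∃ B₂ : ℝ, 0 < B₂ ∧ ∀ s : ℝ, 1 < s → s ≤ 2 →
      B₂ / (s - 1) ≤ ∑' I : (Ideal (𝓞 K))⁰, (Ideal.absNorm (I : Ideal (𝓞 K)) : ℝ) ^ (-s) := by
  obtain ⟨B, hB, h⟩ := div_le_zetaR K
  exact ⟨B, hB, fun s hs hs2 => (h s hs hs2).trans_eq (tsum_absNorm_rpow_eq_zetaR K hs).symm⟩

end Fermat.Agent.S14.SIan
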